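/-
Program TW (S56), work package WP6 (helper89), brick (6b): an abstract counting lemma in degree-one
group cohomology.

`k` a finite field, `G` a group, `φ : A ⟶ M` an injective morphism of `k`-linear representations of
`G` with `M` finite, `H1c ≤ H¹(G, A)` a finite subspace ("the continuous classes") containing all
connecting classes `[g ↦ φ⁻¹(g m - m)]`.  If `#H1c ≤ |k|²` and there is `m ∉ φ(A)` with
`g m - m ∈ φ(A)` for all `g` (i.e. `H⁰(G, M/φ(A)) ≠ 0`), then the image of `H1c` in `H¹(G, M)` has at
most `|k| · #M^G` elements.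
-/
import Mathlib

set_option autoImplicit false

universe u

open CategoryTheory groupCohomology

namespace Fermat.Agent.TW.LocP.CountLocP89

variable {k G : Type u} [Field k] [Group G]

section Connecting

variable {A M : Rep k G} (φ : A ⟶ M)

/-- The subspace of `m : M` all of whose "coboundary values" `g m - m` lie in the image of `φ`. -/
def relInv : Submodule k M where
  carrier := {m | ∀ g : G, M.ρ g m - m ∈ LinearMap.range φ.hom.toLinearMap}
  add_mem' := by
    intro a b ha hb g
    have : M.ρ g (a + b) - (a + b) = (M.ρ g a - a) + (M.ρ g b - b) := by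
      rw [map_add]; abel
    rw [this]
    exact Submodule.add_mem _ (ha g) (hb g)
  zero_mem' := by
    intro g
    rw [map_zero, sub_zero]
    exact Submodule.zero_mem _
  smul_mem' := by
    intro c a ha g
    have : M.ρ g (c • a) - c • a = c • (M.ρ g a - a) := by
      rw [map_smul, smul_sub]
    rw [this]
    exact Submodule.smul_mem _ c (ha g)

lemma mem_relInv_iff (m : M) :
    m ∈ relInv φ ↔ ∀ g : G, M.ρ g m - m ∈ LinearMap.range φ.hom.toLinearMap := Iff.rfl

lemma range_le_relInv : LinearMap.range φ.hom.toLinearMap ≤ relInv φ := by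
  rintro _ ⟨a, rfl⟩ g
  refine ⟨A.ρ g a - a, ?_⟩
  change φ.hom (A.ρ g a - a) = M.ρ g (φ.hom a) - φ.hom a
  rw [map_sub, Rep.hom_comm_apply]

lemma invariants_le_relInv : M.ρ.invariants ≤ relInv φ := by
  intro m hm g
  rw [(Representation.mem_invariants _ _).1 hm g, sub_self]
  exact Submodule.zero_mem _

variable (hφ : Function.Injective φ.hom.toLinearMap)

/-- The connecting cochain `g ↦ φ⁻¹(g m - m)` of `m ∈ relInv φ`, as a linear map. -/
noncomputable def connCochain : relInv φ →ₗ[k] (G → A) :=
  LinearMap.pi fun g =>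
    (LinearEquiv.ofInjective φ.hom.toLinearMap hφ).symm.toLinearMap ∘ₗ
      LinearMap.codRestrict (LinearMap.range φ.hom.toLinearMap)
        ((M.ρ g - LinearMap.id) ∘ₗ (relInv φ).subtype) (fun m => m.2 g)

lemma hom_connCochain (m : relInv φ) (g : G) :
    φ.hom (connCochain φ hφ m g) = M.ρ g m - m := by
  have := (LinearEquiv.ofInjective φ.hom.toLinearMap hφ).apply_symm_apply
    ⟨M.ρ g m - m, m.2 g⟩
  exact congrArg Subtype.val this

lemma connCochain_mem_cocycles₁ (m : relInv φ) : connCochain φ hφ m ∈ cocycles₁ A := by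
  rw [mem_cocycles₁_iff]
  intro g h
  apply hφ
  change φ.hom _ = φ.hom _
  rw [map_add, Rep.hom_comm_apply, hom_connCochain, hom_connCochain, hom_connCochain, map_mul]
  simp only [Module.End.mul_apply, map_sub]
  abel

/-- The connecting cocycle of `m ∈ relInv φ`. -/
noncomputable def connCocycle : relInv φ →ₗ[k] cocycles₁ A :=
  LinearMap.codRestrict _ (connCochain φ hφ) (connCochain_mem_cocycles₁ φ hφ)

lemma connCocycle_apply (m : relInv φ) (g : G) :
    connCocycle φ hφ m g = connCochain φ hφ m g := rfl

/-- The connecting class `H⁰(G, M/A) ⊇ relInv → H¹(G, A)`. -/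
noncomputable def connClass : relInv φ →ₗ[k] H1 A :=
  (H1π A).hom ∘ₗ connCocycle φ hφ

end Connecting

section Count

variable {A M : Rep k G} (φ : A ⟶ M) (hφ : Function.Injective φ.hom.toLinearMap)

/-- The map induced by `φ` on `H¹`. -/
noncomputable abbrev H1map : H1 A →ₗ[k] H1 M :=
  (groupCohomology.map (MonoidHom.id G) φ 1).hom

lemma H1map_connClass (m : relInv φ) : H1map φ (connClass φ hφ m) = 0 := by
  have h1 := congrArg (fun f => f.hom (connCocycle φ hφ m)) (H1π_comp_map (MonoidHom.id G) φ)
  simp only [ModuleCat.hom_comp, LinearMap.comp_apply] at h1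
  change (groupCohomology.map (MonoidHom.id G) φ 1).hom
    ((H1π A).hom (connCocycle φ hφ m)) = 0
  rw [h1, H1π_eq_zero_iff]
  refine ⟨(m : M), ?_⟩
  funext g
  rw [d₀₁_hom_apply, coe_mapCocycles₁]
  simp only [cochainsMap₁]
  exact (hom_connCochain φ hφ m g).symm

lemma range_connClass_le_ker :
    LinearMap.range (connClass φ hφ) ≤ LinearMap.ker (H1map φ) := by
  rintro _ ⟨m, rfl⟩
  exact H1map_connClass φ hφ m

lemma exists_of_connClass_eq_zero (m : relInv φ) (h : connClass φ hφ m = 0) :
    ∃ x : M.ρ.invariants, ∃ a : A, (m : M) = (x : M) + φ.hom a := by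
  have h' : (H1π A).hom (connCocycle φ hφ m) = 0 := h
  rw [H1π_eq_zero_iff] at h'
  obtain ⟨a, ha⟩ := h'
  have hg : ∀ g : G, A.ρ g a - a = connCochain φ hφ m g := by
    intro g
    have := congrFun ha g
    rw [d₀₁_hom_apply] at this
    exact this
  refine ⟨⟨(m : M) - φ.hom a, ?_⟩, a, by simp⟩
  rw [Representation.mem_invariants]
  intro g
  have h2 := hom_connCochain φ hφ m g
  rw [← hg g, map_sub, Rep.hom_comm_apply] at h2
  rw [map_sub]
  have : M.ρ g (m : M) - M.ρ g (φ.hom a) - ((m : M) - φ.hom a) = 0 := by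
    rw [← sub_eq_zero] at h2
    have h3 : M.ρ g (m : M) - M.ρ g (φ.hom a) - ((m : M) - φ.hom a) =
        -(M.ρ g (φ.hom a) - φ.hom a - (M.ρ g (m : M) - (m : M))) := by abel
    rw [h3, h2, neg_zero]
  exact sub_eq_zero.1 this

include hφ in
lemma finite_of_injective [Finite M] : Finite A :=
  Finite.of_injective _ hφ

lemma card_ker_connClass_le [Finite M] :
    Nat.card (LinearMap.ker (connClass φ hφ)) ≤ Nat.card M.ρ.invariants * Nat.card A := by
  classical
  have : Finite A := finite_of_injective φ hφ
  rw [← Nat.card_prod]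
  have hex : ∀ m : LinearMap.ker (connClass φ hφ),
      ∃ p : M.ρ.invariants × A, ((m : relInv φ) : M) = (p.1 : M) + φ.hom p.2 := by
    intro m
    obtain ⟨x, a, h⟩ := exists_of_connClass_eq_zero φ hφ (m : relInv φ) m.2
    exact ⟨(x, a), h⟩
  refine Nat.card_le_card_of_injective (fun m => Classical.choose (hex m)) ?_
  intro m m' h
  have h' : Classical.choose (hex m) = Classical.choose (hex m') := h
  have h1 := Classical.choose_spec (hex m)
  have h2 := Classical.choose_spec (hex m')
  apply Subtype.ext
  apply Subtype.ext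
  rw [h1, h2, h']

include hφ in
lemma card_mul_card_le_card_relInv [Finite k] [Finite M]
    (hm : ∃ m ∈ relInv φ, m ∉ LinearMap.range φ.hom.toLinearMap) :
    Nat.card k * Nat.card A ≤ Nat.card (relInv φ) := by
  classical
  obtain ⟨m, hmN, hmR⟩ := hm
  set R : Submodule k (relInv φ) :=
    (LinearMap.range φ.hom.toLinearMap).comap (relInv φ).subtype with hR
  have : Finite (relInv φ ⧸ R) := Finite.of_surjective _ (Submodule.mkQ_surjective R)
  rw [Submodule.card_eq_card_quotient_mul_card R, mul_comm]
  refine Nat.mul_le_mul ?_ ?_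
  · -- `A` injects into `R`
    refine Nat.card_le_card_of_injective
      (fun a => (⟨⟨φ.hom a, range_le_relInv φ ⟨a, rfl⟩⟩, ⟨a, rfl⟩⟩ : R)) ?_
    intro a a' h
    apply hφ
    exact congrArg (fun r : R => ((r : relInv φ) : M)) h
  · -- `k` injects into the quotient
    have hne : (R.mkQ ⟨m, hmN⟩) ≠ 0 := by
      intro h
      rw [Submodule.mkQ_apply, Submodule.Quotient.mk_eq_zero] at h
      exact hmR h
    refine Nat.card_le_card_of_injective (fun c : k => c • R.mkQ ⟨m, hmN⟩) ?_
    intro c c' h
    simp only at h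
    rw [← sub_eq_zero, ← sub_smul, smul_eq_zero] at h
    rcases h with h | h
    · exact sub_eq_zero.1 h
    · exact absurd h hne

/-- Sharp form of the count. -/
theorem card_map_mul_card_relInv_le [Finite M] (H1c : Submodule k (H1 A)) [Finite H1c]
    (hH1c : LinearMap.range (connClass φ hφ) ≤ H1c) :
    Nat.card (H1c.map (H1map φ)) * Nat.card (relInv φ) ≤
      Nat.card H1c * (Nat.card M.ρ.invariants * Nat.card A) := by
  classical
  set δ := connClass φ hφ with hδ
  set f' : H1c →ₗ[k] H1 M := (H1map φ).domRestrict H1c with hf'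
  have e1 : Nat.card (relInv φ) = Nat.card (LinearMap.ker δ) * Nat.card (LinearMap.range δ) := by
    rw [Submodule.card_eq_card_quotient_mul_card (LinearMap.ker δ)]
    congr 1
    exact Nat.card_congr (LinearMap.quotKerEquivRange δ).toEquiv
  have e2 : Nat.card H1c = Nat.card (LinearMap.ker f') * Nat.card (H1c.map (H1map φ)) := by
    rw [Submodule.card_eq_card_quotient_mul_card (LinearMap.ker f')]
    congr 1
    rw [← LinearMap.range_domRestrict]
    exact Nat.card_congr (LinearMap.quotKerEquivRange f').toEquiv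
  have e3 : Nat.card (LinearMap.range δ) ≤ Nat.card (LinearMap.ker f') := by
    refine Nat.card_le_card_of_injective
      (fun d => (⟨⟨(d : H1 A), hH1c d.2⟩, ?_⟩ : LinearMap.ker f')) ?_
    · rw [LinearMap.mem_ker]
      exact range_connClass_le_ker φ hφ d.2
    · intro d d' h
      apply Subtype.ext
      exact congrArg (fun r : LinearMap.ker f' => ((r : H1c) : H1 A)) h
  have e4 := card_ker_connClass_le φ hφ
  calc Nat.card (H1c.map (H1map φ)) * Nat.card (relInv φ)
      = Nat.card (H1c.map (H1map φ)) *
          (Nat.card (LinearMap.ker δ) * Nat.card (LinearMap.range δ)) := by rw [e1]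
    _ ≤ Nat.card (H1c.map (H1map φ)) *
          ((Nat.card M.ρ.invariants * Nat.card A) * Nat.card (LinearMap.ker f')) :=
        Nat.mul_le_mul_left _ (Nat.mul_le_mul e4 e3)
    _ = Nat.card H1c * (Nat.card M.ρ.invariants * Nat.card A) := by rw [e2]; ring

/-- **Abstract count (6b).**  If the finite subspace `H1c ≤ H¹(G, A)` contains the connecting
classes, has at most `|k|²` elements, and `H⁰(G, M/A) ≠ 0` (witnessed by `m`), then the image of
`H1c` in `H¹(G, M)` has at most `|k| · #M^G` elements. -/
theorem card_map_le [Finite k] [Finite M] (H1c : Submodule k (H1 A)) [Finite H1c]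
    (hH1c : LinearMap.range (connClass φ hφ) ≤ H1c)
    (hcard : Nat.card H1c ≤ (Nat.card k) ^ 2)
    (hm : ∃ m ∈ relInv φ, m ∉ LinearMap.range φ.hom.toLinearMap) :
    Nat.card (H1c.map (H1map φ)) ≤ Nat.card k * Nat.card M.ρ.invariants := by
  have : Finite A := finite_of_injective φ hφ
  have h1 := card_map_mul_card_relInv_le φ hφ H1c hH1c
  have h2 := card_mul_card_le_card_relInv φ hφ hm
  have hk : 0 < Nat.card k := Nat.card_pos
  have hA : 0 < Nat.card A := Nat.card_pos
  have h3 : Nat.card (H1c.map (H1map φ)) * (Nat.card k * Nat.card A) ≤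
      (Nat.card k * Nat.card M.ρ.invariants) * (Nat.card k * Nat.card A) :=
    calc Nat.card (H1c.map (H1map φ)) * (Nat.card k * Nat.card A)
        ≤ Nat.card (H1c.map (H1map φ)) * Nat.card (relInv φ) := Nat.mul_le_mul_left _ h2
      _ ≤ Nat.card H1c * (Nat.card M.ρ.invariants * Nat.card A) := h1
      _ ≤ (Nat.card k) ^ 2 * (Nat.card M.ρ.invariants * Nat.card A) :=
          Nat.mul_le_mul_right _ hcard
      _ = (Nat.card k * Nat.card M.ρ.invariants) * (Nat.card k * Nat.card A) := by ring
  exact Nat.le_of_mul_le_mul_right h3 (Nat.mul_pos hk hA)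

end Count

end Fermat.Agent.TW.LocP.CountLocP89
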