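/-
Program TW (S56), work package WP6 (helper89): the FINAL theorem of WP6,

  `localBoundStrictOrdinary : Contract52.LocalBoundStrictOrdinary p ρbar`   (`p` odd, `k` finite),

i.e. there is an `𝔽_p`-subspace `L ≤ H¹(ℚ_p, ad⁰ ρ̄)` with `dim L ≤ h⁰(ℚ_p, ad⁰ ρ̄) + [k : 𝔽_p]`
containing the local class of every lift of `ρ̄` to `k[ε]` which is strictly ordinary at `p` with
cyclotomic determinant.

Ingredients: the strict-ordinary linear algebra `OrdEnd97.exists_line_cocycle` (helper97), the Kummer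
count `KummerQp71.finite_and_card_continuousH1_primeLocal_le` (helper71), the abstract count
`CountLocP89.card_map_mul_card_relInv_le` and `ContConn89` (helper89), and
`Lib.InertiaCyclo69.exists_mem_inertia_forall_apply_eq_pow` (uniqueness of the ordinary line).
-/
import Mathlib
import Fermat.Agent.TW.Spec.Contract52
import Fermat.Agent.TW.OrdLocal.OrdEnd97
import Fermat.Agent.TW.OrdLocal.KummerQp71
import Fermat.Agent.Lib.InertiaCyclo69
import Fermat.Agent.TW.LocP.CountLocP89
import Fermat.Agent.TW.LocP.ContConn89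

set_option autoImplicit false
set_option linter.unusedSectionVars false

open CategoryTheory groupCohomology ExtCitation
open Fermat.Agent.TW.Spec.Defs52 Fermat.Agent.TW.Spec.Contract52
open Fermat.Agent.TW.LocP.CountLocP89 Fermat.Agent.TW.LocP.ContConn89

namespace Fermat.Agent.TW.LocP.StrictOrdBound89

local notation "Qb" => AlgebraicClosure ℚ

/-! ### The place `padicPlace p` lies over `p`; the local group lands in its decomposition group -/

theorem padicPlace_liesOverPrime (p : ℕ) [Fact p.Prime] : (padicPlace p).LiesOverPrime p := by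
  have hp : (p : Qb) ≠ 0 := Nat.cast_ne_zero.mpr (Fact.out : p.Prime).ne_zero
  unfold ValuationSubring.LiesOverPrime
  rw [ValuationSubring.mem_nonunits_iff]
  by_contra h
  rw [not_lt] at h
  have h1 : (padicPlace p).valuation ((p : Qb)⁻¹) ≤ 1 := by
    rw [map_inv₀]
    exact inv_le_one_of_one_le₀ h
  have hmem : (p : Qb)⁻¹ ∈ padicPlace p := ((padicPlace p).valuation_le_one_iff _).1 h1
  rw [mem_padicPlace_iff, map_inv₀, map_natCast, nnnorm_inv] at hmem
  have hv : ‖(p : PadicAlgCl p)‖₊ = 1 / (p : NNReal) := by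
    rw [← PadicAlgCl.valuation_def, PadicAlgCl.valuation_p]
  rw [hv, one_div, inv_inv] at hmem
  have : (1 : NNReal) < p := by exact_mod_cast (Fact.out : p.Prime).one_lt
  exact absurd hmem (not_le.mpr this)

theorem locAt_mem_decompositionSubgroup (p : ℕ) [Fact p.Prime]
    (g : primeLocalGaloisGroup (pPrime p)) :
    locAt (pPrime p) g ∈ (padicPlace p).decompositionSubgroup ℚ :=
  localGaloisToGlobal_mem_decompositionSubgroup p g

theorem inertiaSubgroupIn_le_decompositionSubgroup (P : ValuationSubring Qb) :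
    P.inertiaSubgroupIn ℚ ≤ P.decompositionSubgroup ℚ := by
  rintro σ ⟨x, -, rfl⟩
  exact x.2

variable (p : ℕ) [Fact p.Prime] {k : Type} [Field k] (ρbar : ResidualGaloisRep k)

/-! ### Ordinary lines -/

/-- `v0` spans a line of `ρbar.V` which is ordinary for the decomposition group of `P`: the group acts on
the line by `a z` and on the quotient by `z`, `z² = 1`, `z = 1` on inertia (`a` the cyclotomic
exponent). -/
def IsOrdLine (P : ValuationSubring Qb) (v0 : ρbar.V) : Prop :=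
  v0 ≠ 0 ∧ ∀ σ ∈ P.decompositionSubgroup ℚ, ∀ a : ℕ, (∀ μ : Qb, μ ^ p = 1 → σ μ = μ ^ a) →
    ∃ z : k, z * z = 1 ∧ (σ ∈ P.inertiaSubgroupIn ℚ → z = 1) ∧
      ρbar.ρ σ v0 = ((a : k) * z) • v0 ∧
      ∀ v, ρbar.ρ σ v - z • v ∈ Submodule.span k {v0}

variable {p ρbar}

/-- Uniqueness of the ordinary line (`p` odd). -/
theorem IsOrdLine.mem_span (hp2 : p ≠ 2) {P : ValuationSubring Qb} (hP : P.LiesOverPrime p)
    {v0 v0' : ρbar.V} (h : IsOrdLine p ρbar P v0) (h' : IsOrdLine p ρbar P v0') :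
    v0' ∈ Submodule.span k {v0} := by
  have hpp : p.Prime := Fact.out
  have h2p : Nat.Coprime 2 p := by
    rw [Nat.coprime_comm, Nat.Prime.coprime_iff_not_dvd hpp]
    intro hdvd
    exact hp2 ((Nat.prime_dvd_prime_iff_eq hpp Nat.prime_two).mp hdvd)
  obtain ⟨σ, hσI, hσ⟩ :=
    Fermat.Agent.Lib.InertiaCyclo69.exists_mem_inertia_forall_apply_eq_pow hpp hP 1 h2p
  have hσD : σ ∈ P.decompositionSubgroup ℚ := inertiaSubgroupIn_le_decompositionSubgroup P hσI
  have hcyc : ∀ μ : Qb, μ ^ p = 1 → σ μ = μ ^ 2 := fun μ hμ => hσ μ (by rwa [pow_one])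
  obtain ⟨z, -, hz1, -, hquot⟩ := h.2 σ hσD 2 hcyc
  obtain ⟨z', -, hz1', hline', -⟩ := h'.2 σ hσD 2 hcyc
  have hz : z = 1 := hz1 hσI
  have hz' : z' = 1 := hz1' hσI
  have := hquot v0'
  rw [hline', hz, hz', mul_one, one_smul] at this
  have e : ((2 : ℕ) : k) • v0' - v0' = v0' := by
    rw [Nat.cast_ofNat, two_smul, add_sub_cancel_right]
  rwa [e] at this

theorem IsOrdLine.span_eq (hp2 : p ≠ 2) {P : ValuationSubring Qb} (hP : P.LiesOverPrime p)
    {v0 v0' : ρbar.V} (h : IsOrdLine p ρbar P v0) (h' : IsOrdLine p ρbar P v0') :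
    Submodule.span k {v0'} = Submodule.span k {v0} := by
  apply le_antisymm
  · rw [Submodule.span_singleton_le_iff_mem]
    exact h.mem_span hp2 hP h'
  · rw [Submodule.span_singleton_le_iff_mem]
    exact h'.mem_span hp2 hP h

/-- For `f` killing the line and with image in the line: `ρ̄(σ) f = a • f ρ̄(σ)`. -/
theorem IsOrdLine.mul_eq_smul {P : ValuationSubring Qb} {v0 : ρbar.V} (h : IsOrdLine p ρbar P v0)
    {σ : GQ} (hσ : σ ∈ P.decompositionSubgroup ℚ) {a : ℕ}
    (ha : ∀ μ : Qb, μ ^ p = 1 → σ μ = μ ^ a) {f : Module.End k ρbar.V}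
    (hf0 : f v0 = 0) (hfL : ∀ v, f v ∈ Submodule.span k {v0}) :
    ρbar.ρ σ * f = (a : k) • (f * ρbar.ρ σ) := by
  obtain ⟨z, -, -, hline, hquot⟩ := h.2 σ hσ a ha
  ext v
  obtain ⟨s, hs⟩ := Submodule.mem_span_singleton.1 (hfL v)
  obtain ⟨t, ht⟩ := Submodule.mem_span_singleton.1 (hquot v)
  have hfk : ∀ w ∈ Submodule.span k {v0}, f w = 0 := by
    intro w hw
    obtain ⟨c, rfl⟩ := Submodule.mem_span_singleton.1 hw
    rw [map_smul, hf0, smul_zero]
  have e1 : f (ρbar.ρ σ v) = z • f v := by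
    have : ρbar.ρ σ v = (ρbar.ρ σ v - z • v) + z • v := by abel
    rw [this, map_add, hfk _ (hquot v), zero_add, map_smul]
  rw [Module.End.mul_apply, LinearMap.smul_apply, Module.End.mul_apply, e1, ← hs, map_smul, hline,
    smul_smul, smul_smul, smul_smul]
  congr 1
  ring

/-- Conjugation by `ρ̄(σ)` multiplies such `f` by the cyclotomic exponent. -/
theorem IsOrdLine.conj_eq_smul {P : ValuationSubring Qb} {v0 : ρbar.V} (h : IsOrdLine p ρbar P v0)
    {σ : GQ} (hσ : σ ∈ P.decompositionSubgroup ℚ) {a : ℕ}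
    (ha : ∀ μ : Qb, μ ^ p = 1 → σ μ = μ ^ a) {f : Module.End k ρbar.V}
    (hf0 : f v0 = 0) (hfL : ∀ v, f v ∈ Submodule.span k {v0}) :
    ρbar.ρ σ * f * ρbar.ρ σ⁻¹ = (a : k) • f := by
  rw [h.mul_eq_smul hσ ha hf0 hfL, smul_mul_assoc, mul_assoc, ← map_mul, mul_inv_cancel, map_one,
    mul_one]

/-- `ρ̄(σ)` preserves the ordinary line. -/
theorem IsOrdLine.apply_mem {P : ValuationSubring Qb} {v0 : ρbar.V} (h : IsOrdLine p ρbar P v0)
    {σ : GQ} (hσ : σ ∈ P.decompositionSubgroup ℚ) {w : ρbar.V}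
    (hw : w ∈ Submodule.span k {v0}) : ρbar.ρ σ w ∈ Submodule.span k {v0} := by
  obtain ⟨z, -, -, hline, -⟩ :=
    h.2 σ hσ (cycloExp p σ)
      (fun μ hμ => Fermat.Agent.TW.OrdLocal.StrictLift97.apply_eq_pow_cycloExp p σ hμ)
  obtain ⟨c, rfl⟩ := Submodule.mem_span_singleton.1 hw
  rw [map_smul, hline, smul_smul]
  exact Submodule.smul_mem _ _ (Submodule.mem_span_singleton_self v0)

/-! ### The local module `ad⁰ ρ̄ |_{G_p}` and the sub-representation `W⁰` -/

section LocalModule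

variable (p) (ρbar)
variable [Algebra (ZMod p) k]

/-- `ad⁰ ρ̄` restricted to the local Galois group at `p` (`𝔽_p`-coefficients). -/
noncomputable abbrev Mloc : Rep.{0} (ZMod p) (primeLocalGaloisGroup (pPrime p)) :=
  resAt (pPrime p) (ad0 p ρbar)

/-- Read an element of `Mloc` as an endomorphism of `ρbar.V` (additive). -/
def toEnd : Mloc p ρbar →+ Module.End k ρbar.V where
  toFun x := ad0ToEnd p ρbar x
  map_zero' := rfl
  map_add' _ _ := rfl

theorem toEnd_injective : Function.Injective (toEnd p ρbar) := by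
  intro x y h
  exact Subtype.ext h

theorem toEnd_smul (c : ZMod p) (x : Mloc p ρbar) :
    toEnd p ρbar (c • x) = algebraMap (ZMod p) k c • toEnd p ρbar x := rfl

theorem toEnd_ρ (g : primeLocalGaloisGroup (pPrime p)) (x : Mloc p ρbar) :
    toEnd p ρbar ((Mloc p ρbar).ρ g x) =
      ρbar.ρ (locAt (pPrime p) g) * toEnd p ρbar x * ρbar.ρ (locAt (pPrime p) g)⁻¹ := rfl

theorem trace_toEnd (x : Mloc p ρbar) : LinearMap.trace k ρbar.V (toEnd p ρbar x) = 0 :=
  (mem_End0_iff ρbar _).1 (show End0 ρbar from x).2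

/-- A trace-zero endomorphism as an element of `Mloc`. -/
def ofEnd (f : Module.End k ρbar.V) (hf : LinearMap.trace k ρbar.V f = 0) : Mloc p ρbar :=
  (⟨f, (mem_End0_iff ρbar f).2 hf⟩ : End0 ρbar)

@[simp] theorem toEnd_ofEnd (f : Module.End k ρbar.V) (hf : LinearMap.trace k ρbar.V f = 0) :
    toEnd p ρbar (ofEnd p ρbar f hf) = f := rfl

/-- `W⁰(L) = Hom(V/L, L)` for the line `L = k v0`, as an `𝔽_p`-submodule of `Mloc`. -/
def W0sub (v0 : ρbar.V) : Submodule (ZMod p) (Mloc p ρbar) where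
  carrier := {x | toEnd p ρbar x v0 = 0 ∧ ∀ v, toEnd p ρbar x v ∈ Submodule.span k {v0}}
  add_mem' := by
    rintro x y ⟨hx0, hxL⟩ ⟨hy0, hyL⟩
    refine ⟨?_, fun v => ?_⟩
    · rw [map_add, LinearMap.add_apply, hx0, hy0, add_zero]
    · rw [map_add, LinearMap.add_apply]
      exact Submodule.add_mem _ (hxL v) (hyL v)
  zero_mem' := by
    refine ⟨?_, fun v => ?_⟩
    · rw [map_zero, LinearMap.zero_apply]
    · rw [map_zero, LinearMap.zero_apply]
      exact Submodule.zero_mem _
  smul_mem' := by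
    rintro c x ⟨hx0, hxL⟩
    refine ⟨?_, fun v => ?_⟩
    · rw [toEnd_smul, LinearMap.smul_apply, hx0, smul_zero]
    · rw [toEnd_smul, LinearMap.smul_apply]
      exact Submodule.smul_mem _ _ (hxL v)

theorem mem_W0sub_iff (v0 : ρbar.V) (x : Mloc p ρbar) :
    x ∈ W0sub p ρbar v0 ↔
      toEnd p ρbar x v0 = 0 ∧ ∀ v, toEnd p ρbar x v ∈ Submodule.span k {v0} := Iff.rfl

variable {p ρbar}

/-- On `W⁰` the local Galois group acts through the cyclotomic exponent. -/
theorem ρ_eq_nsmul_of_mem_W0sub {v0 : ρbar.V} (h : IsOrdLine p ρbar (padicPlace p) v0)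
    (g : primeLocalGaloisGroup (pPrime p)) {x : Mloc p ρbar} (hx : x ∈ W0sub p ρbar v0) :
    (Mloc p ρbar).ρ g x = cycloExp p (primeLocalToGlobal (pPrime p) g) • x := by
  apply toEnd_injective
  rw [toEnd_ρ, map_nsmul, ← Nat.cast_smul_eq_nsmul k]
  exact h.conj_eq_smul (locAt_mem_decompositionSubgroup p g)
    (fun μ hμ => Fermat.Agent.TW.OrdLocal.StrictLift97.apply_eq_pow_cycloExp p _ hμ) hx.1 hx.2

theorem W0sub_le_comap {v0 : ρbar.V} (h : IsOrdLine p ρbar (padicPlace p) v0)
    (g : primeLocalGaloisGroup (pPrime p)) :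
    W0sub p ρbar v0 ≤ (W0sub p ρbar v0).comap ((Mloc p ρbar).ρ g) := by
  intro x hx
  rw [Submodule.mem_comap, ρ_eq_nsmul_of_mem_W0sub h g hx]
  exact (W0sub p ρbar v0).nsmul_mem hx _

/-- `W⁰` as a representation of the local Galois group. -/
noncomputable abbrev W0 {v0 : ρbar.V} (h : IsOrdLine p ρbar (padicPlace p) v0) :
    Rep.{0} (ZMod p) (primeLocalGaloisGroup (pPrime p)) :=
  Rep.subrepresentation (Mloc p ρbar) (W0sub p ρbar v0) (W0sub_le_comap h)

/-- The inclusion `W⁰ ⟶ Mloc`. -/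
noncomputable abbrev W0incl {v0 : ρbar.V} (h : IsOrdLine p ρbar (padicPlace p) v0) :
    W0 h ⟶ Mloc p ρbar :=
  Rep.subtype (Mloc p ρbar) (W0sub p ρbar v0) (W0sub_le_comap h)

theorem W0incl_injective {v0 : ρbar.V} (h : IsOrdLine p ρbar (padicPlace p) v0) :
    Function.Injective (W0incl h).hom.toLinearMap := by
  intro x y hxy
  exact Subtype.ext hxy

theorem range_W0incl {v0 : ρbar.V} (h : IsOrdLine p ρbar (padicPlace p) v0) :
    LinearMap.range (W0incl h).hom.toLinearMap = W0sub p ρbar v0 := by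
  ext m
  constructor
  · rintro ⟨w, rfl⟩
    exact w.2
  · intro hm
    exact ⟨⟨m, hm⟩, rfl⟩

theorem W0_ρ_apply {v0 : ρbar.V} (h : IsOrdLine p ρbar (padicPlace p) v0)
    (g : primeLocalGaloisGroup (pPrime p)) (w : W0 h) :
    (W0 h).ρ g w = cycloExp p (primeLocalToGlobal (pPrime p) g) • w := by
  apply Subtype.ext
  exact ρ_eq_nsmul_of_mem_W0sub h g w.2

end LocalModule

/-! ### Counting: `#W⁰ ≤ |k|` and `#relInv ≥ |k| · #W⁰` -/

section Counting

variable [Algebra (ZMod p) k]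

theorem finite_Mloc [Finite k] : Finite (Mloc p ρbar) := by
  have : Finite (Module.End k ρbar.V) := Module.finite_of_finite k
  exact Finite.of_injective _ (toEnd_injective p ρbar)

omit [Fact p.Prime] in
theorem exists_basis_zero_eq {v0 : ρbar.V} (hv0 : v0 ≠ 0) :
    ∃ b : Module.Basis (Fin 2) k ρbar.V, b 0 = v0 := by
  obtain ⟨y, hy⟩ := exists_linearIndependent_pair_of_one_lt_finrank
    (R := k) (M := ρbar.V) (by rw [ρbar.finrank_eq]; norm_num) hv0
  refine ⟨basisOfLinearIndependentOfCardEqFinrank hy (by rw [ρbar.finrank_eq]; rfl), ?_⟩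
  rw [coe_basisOfLinearIndependentOfCardEqFinrank]
  rfl

/-- `W⁰` has at most `|k|` elements. -/
theorem card_W0sub_le [Finite k] {v0 : ρbar.V} (hv0 : v0 ≠ 0) :
    Nat.card (W0sub p ρbar v0) ≤ Nat.card k := by
  obtain ⟨b, hb⟩ := exists_basis_zero_eq hv0
  refine Nat.card_le_card_of_injective
    (fun x : W0sub p ρbar v0 => b.repr (toEnd p ρbar (x : Mloc p ρbar) (b 1)) 0) ?_
  intro x y hxy
  apply Subtype.ext
  apply toEnd_injective
  have key : ∀ z : W0sub p ρbar v0, toEnd p ρbar (z : Mloc p ρbar) (b 1) =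
      (b.repr (toEnd p ρbar (z : Mloc p ρbar) (b 1)) 0) • b 0 := by
    intro z
    obtain ⟨s, hs⟩ := Submodule.mem_span_singleton.1 (z.2.2 (b 1))
    rw [← hs, ← hb, map_smul, Module.Basis.repr_self, Finsupp.smul_apply, Finsupp.single_eq_same,
      smul_eq_mul, mul_one]
  apply b.ext
  intro i
  fin_cases i
  · change toEnd p ρbar (x : Mloc p ρbar) (b 0) = toEnd p ρbar (y : Mloc p ρbar) (b 0)
    rw [hb, x.2.1, y.2.1]
  · change toEnd p ρbar (x : Mloc p ρbar) (b 1) = toEnd p ρbar (y : Mloc p ρbar) (b 1)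
    rw [key x, key y]
    simp only at hxy
    rw [hxy]

/-- The endomorphism `2 P - 1`, `P v = λ(v) v0` with `λ = b.coord 0`: "`diag(1,-1)`". -/
noncomputable def hEnd (b : Module.Basis (Fin 2) k ρbar.V) : Module.End k ρbar.V :=
  (2 : k) • (b.coord 0).smulRight (b 0) - 1

omit [Fact p.Prime] [Algebra (ZMod p) k] in
theorem trace_hEnd (b : Module.Basis (Fin 2) k ρbar.V) :
    LinearMap.trace k ρbar.V (hEnd b) = 0 := by
  rw [hEnd, map_sub, map_smul, LinearMap.trace_smulRight, LinearMap.trace_one, ρbar.finrank_eq,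
    Module.Basis.coord_apply, Module.Basis.repr_self, Finsupp.single_eq_same, smul_eq_mul, mul_one]
  norm_num

omit [Fact p.Prime] [Algebra (ZMod p) k] in
theorem hEnd_apply_zero (b : Module.Basis (Fin 2) k ρbar.V) : hEnd b (b 0) = b 0 := by
  rw [hEnd, LinearMap.sub_apply, LinearMap.smul_apply, LinearMap.smulRight_apply,
    Module.Basis.coord_apply, Module.Basis.repr_self, Finsupp.single_eq_same, one_smul,
    Module.End.one_apply, two_smul, add_sub_cancel_right]

/-- `σ (2P - 1) σ⁻¹ - (2P - 1)` lies in `W⁰`. -/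
theorem conj_hEnd_sub {v0 : ρbar.V} (h : IsOrdLine p ρbar (padicPlace p) v0)
    (b : Module.Basis (Fin 2) k ρbar.V) (hb : b 0 = v0) {σ : GQ}
    (hσ : σ ∈ (padicPlace p).decompositionSubgroup ℚ) :
    (ρbar.ρ σ * hEnd b * ρbar.ρ σ⁻¹ - hEnd b) v0 = 0 ∧
      ∀ v, (ρbar.ρ σ * hEnd b * ρbar.ρ σ⁻¹ - hEnd b) v ∈ Submodule.span k {v0} := by
  set P : Module.End k ρbar.V := (b.coord 0).smulRight (b 0) with hP
  have hσinv : σ⁻¹ ∈ (padicPlace p).decompositionSubgroup ℚ := inv_mem hσ
  have h11 : ρbar.ρ σ * ρbar.ρ σ⁻¹ = 1 := by rw [← map_mul, mul_inv_cancel, map_one]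
  have hPL : ∀ w ∈ Submodule.span k {v0}, P w = w := by
    intro w hw
    obtain ⟨c, rfl⟩ := Submodule.mem_span_singleton.1 hw
    rw [hP, LinearMap.smulRight_apply, ← hb, map_smul, Module.Basis.coord_apply,
      Module.Basis.repr_self, Finsupp.single_eq_same, smul_eq_mul, mul_one]
  have hPim : ∀ v, P v ∈ Submodule.span k {v0} := by
    intro v
    rw [hP, LinearMap.smulRight_apply, hb]
    exact Submodule.smul_mem _ _ (Submodule.mem_span_singleton_self v0)
  have hform : ρbar.ρ σ * hEnd b * ρbar.ρ σ⁻¹ - hEnd b =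
      (2 : k) • (ρbar.ρ σ * P * ρbar.ρ σ⁻¹ - P) := by
    rw [hEnd, ← hP, mul_sub, sub_mul, mul_one, h11, mul_smul_comm, smul_mul_assoc, smul_sub]
    abel
  rw [hform]
  refine ⟨?_, fun v => ?_⟩
  · rw [LinearMap.smul_apply, LinearMap.sub_apply, Module.End.mul_apply, Module.End.mul_apply,
      hPL _ (h.apply_mem hσinv (Submodule.mem_span_singleton_self v0)),
      hPL _ (Submodule.mem_span_singleton_self v0), ← Module.End.mul_apply, h11,
      Module.End.one_apply, sub_self, smul_zero]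
  · rw [LinearMap.smul_apply, LinearMap.sub_apply, Module.End.mul_apply, Module.End.mul_apply]
    exact Submodule.smul_mem _ _
      (Submodule.sub_mem _ (h.apply_mem hσ (hPim _)) (hPim _))

/-- `relInv` contains `k · (2P - 1) ⊕ W⁰`. -/
theorem card_mul_card_W0sub_le_card_relInv [Finite k] {v0 : ρbar.V}
    (h : IsOrdLine p ρbar (padicPlace p) v0) :
    Nat.card k * Nat.card (W0sub p ρbar v0) ≤ Nat.card (relInv (W0incl h)) := by
  have : Finite (Mloc p ρbar) := finite_Mloc
  obtain ⟨b, hb⟩ := exists_basis_zero_eq h.1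
  have htr : ∀ (s : k) (w : W0sub p ρbar v0), LinearMap.trace k ρbar.V
      (s • hEnd b + toEnd p ρbar (w : Mloc p ρbar)) = 0 := by
    intro s w
    rw [map_add, map_smul, trace_hEnd, smul_zero, trace_toEnd, add_zero]
  have hmem : ∀ (s : k) (w : W0sub p ρbar v0),
      ofEnd p ρbar (s • hEnd b + toEnd p ρbar (w : Mloc p ρbar)) (htr s w) ∈
        relInv (W0incl h) := by
    intro s w g
    rw [range_W0incl h, mem_W0sub_iff]
    set σ : GQ := locAt (pPrime p) g with hσdef
    have hσ : σ ∈ (padicPlace p).decompositionSubgroup ℚ := locAt_mem_decompositionSubgroup p g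
    have ha : ∀ μ : Qb, μ ^ p = 1 → σ μ = μ ^ cycloExp p σ := fun μ hμ =>
      Fermat.Agent.TW.OrdLocal.StrictLift97.apply_eq_pow_cycloExp p σ hμ
    obtain ⟨hN0, hNL⟩ := conj_hEnd_sub h b hb hσ
    set f : Module.End k ρbar.V := toEnd p ρbar (w : Mloc p ρbar) with hf
    have hconj := h.conj_eq_smul hσ ha w.2.1 w.2.2
    have hval : toEnd p ρbar ((Mloc p ρbar).ρ g
        (ofEnd p ρbar (s • hEnd b + f) (htr s w)) - ofEnd p ρbar (s • hEnd b + f) (htr s w)) =
        s • (ρbar.ρ σ * hEnd b * ρbar.ρ σ⁻¹ - hEnd b) + (((cycloExp p σ : ℕ) : k) • f - f) := by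
      rw [map_sub, toEnd_ρ, toEnd_ofEnd, ← hσdef, mul_add, add_mul, mul_smul_comm, smul_mul_assoc,
        hconj, smul_sub]
      abel
    rw [hval]
    refine ⟨?_, fun v => ?_⟩
    · rw [LinearMap.add_apply, LinearMap.smul_apply, hN0, smul_zero, zero_add,
        LinearMap.sub_apply, LinearMap.smul_apply, w.2.1, smul_zero, sub_zero]
    · have e : (s • (ρbar.ρ σ * hEnd b * ρbar.ρ σ⁻¹ - hEnd b) +
          (((cycloExp p σ : ℕ) : k) • f - f)) v =
          s • (ρbar.ρ σ * hEnd b * ρbar.ρ σ⁻¹ - hEnd b) v +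
            (((cycloExp p σ : ℕ) : k) • f v - f v) := rfl
      rw [e]
      exact Submodule.add_mem _ (Submodule.smul_mem _ _ (hNL v))
        (Submodule.sub_mem _ (Submodule.smul_mem _ _ (w.2.2 v)) (w.2.2 v))
  rw [← Nat.card_prod]
  refine Nat.card_le_card_of_injective
    (fun sw : k × W0sub p ρbar v0 =>
      (⟨ofEnd p ρbar (sw.1 • hEnd b + toEnd p ρbar (sw.2 : Mloc p ρbar)) (htr sw.1 sw.2),
        hmem sw.1 sw.2⟩ : relInv (W0incl h))) ?_
  rintro ⟨s, w⟩ ⟨s', w'⟩ hEq
  have h1 : s • hEnd b + toEnd p ρbar (w : Mloc p ρbar) =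
      s' • hEnd b + toEnd p ρbar (w' : Mloc p ρbar) :=
    congrArg (fun m : relInv (W0incl h) => toEnd p ρbar (m : Mloc p ρbar)) hEq
  have h2 := congrArg (fun F : Module.End k ρbar.V => F v0) h1
  simp only [LinearMap.add_apply, LinearMap.smul_apply] at h2
  rw [w.2.1, w'.2.1, add_zero, add_zero, ← hb, hEnd_apply_zero] at h2
  have hs : s = s' := by
    have h3 : (s - s') • b 0 = 0 := by rw [sub_smul, h2, sub_self]
    rcases smul_eq_zero.1 h3 with h4 | h4
    · exact sub_eq_zero.1 h4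
    · exact absurd h4 (b.ne_zero 0)
  subst hs
  have hw : (w : Mloc p ρbar) = w' := toEnd_injective p ρbar (add_left_cancel h1)
  rw [Subtype.ext hw]

end Counting

/-! ### The count of the image of `H¹_c(G_p, W⁰)` -/

section ImageCount

variable [Algebra (ZMod p) k]

/-- The action on `Mloc` is level-constant (`ρ̄` factors through a finite level). -/
theorem isLevelConstant₁_ρ (m : Mloc p ρbar) :
    IsLevelConstant₁ (locAt (pPrime p))
      (fun g : primeLocalGaloisGroup (pPrime p) => (Mloc p ρbar).ρ g m) := by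
  obtain ⟨F, hF, h1⟩ := ρbar.factorsThroughFiniteLevel
  refine ⟨F, hF, fun g s hs => ?_⟩
  have hs1 : ρbar.ρ (locAt (pPrime p) s) = 1 :=
    h1 _ (fun x hx => (IntermediateField.mem_fixingSubgroup_iff F _).1 hs x hx)
  have hs2 : ρbar.ρ (locAt (pPrime p) s)⁻¹ = 1 := by
    have : ρbar.ρ (locAt (pPrime p) s) * ρbar.ρ (locAt (pPrime p) s)⁻¹ = 1 := by
      rw [← map_mul, mul_inv_cancel, map_one]
    rwa [hs1, one_mul] at this
  have hsm : (Mloc p ρbar).ρ s m = m := by
    apply toEnd_injective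
    rw [toEnd_ρ, hs1, hs2, one_mul, mul_one]
  change (Mloc p ρbar).ρ (g * s) m = (Mloc p ρbar).ρ g m
  rw [map_mul, Module.End.mul_apply, hsm]

theorem finite_and_card_image_le (hp2 : p ≠ 2) [Finite k] {v0 : ρbar.V}
    (h : IsOrdLine p ρbar (padicPlace p) v0) :
    Finite (continuousH1 (locAt (pPrime p)) (W0 h)) ∧
      Nat.card ((continuousH1 (locAt (pPrime p)) (W0 h)).map (H1map (W0incl h))) ≤
        Nat.card k * Nat.card (Mloc p ρbar).ρ.invariants := by
  have hfinM : Finite (Mloc p ρbar) := finite_Mloc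
  have hfinW : Finite (W0 h) := inferInstanceAs (Finite (W0sub p ρbar v0))
  have hpA : ∀ a : W0 h, p • a = 0 := by
    intro a
    rw [← Nat.cast_smul_eq_nsmul (ZMod p), ZMod.natCast_self, zero_smul]
  obtain ⟨hfinH, hH⟩ :=
    Fermat.Agent.TW.OrdLocal.KummerQp71.finite_and_card_continuousH1_primeLocal_le p hp2
      (W0 h) hpA (W0_ρ_apply h)
  refine ⟨hfinH, ?_⟩
  have hfinH' : Finite (continuousH1 (locAt (pPrime p)) (W0 h)) := hfinH
  have hcount := card_map_continuousH1_mul_card_relInv_le (locAt (pPrime p)) (W0incl h)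
    (W0incl_injective h) (isLevelConstant₁_ρ (p := p) (ρbar := ρbar))
  have hR := card_mul_card_W0sub_le_card_relInv h
  have hW := card_W0sub_le (p := p) h.1
  have hWpos : 0 < Nat.card (W0sub p ρbar v0) := Nat.card_pos
  have hKpos : 0 < Nat.card k := Nat.card_pos
  -- abbreviations
  set I := Nat.card ((continuousH1 (locAt (pPrime p)) (W0 h)).map (H1map (W0incl h))) with hI
  set R := Nat.card (relInv (W0incl h)) with hRdef
  set H := Nat.card (continuousH1 (locAt (pPrime p)) (W0 h)) with hHdef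
  set V := Nat.card (Mloc p ρbar).ρ.invariants with hVdef
  set W := Nat.card (W0sub p ρbar v0) with hWdef
  set K := Nat.card k with hKdef
  have hH' : H ≤ W ^ 2 := hH
  have hcount' : I * R ≤ H * (V * W) := hcount
  have h1 : I * K * W ≤ W * W * V * W :=
    calc I * K * W = I * (K * W) := by ring
      _ ≤ I * R := Nat.mul_le_mul_left _ hR
      _ ≤ H * (V * W) := hcount'
      _ ≤ W ^ 2 * (V * W) := Nat.mul_le_mul_right _ hH'
      _ = W * W * V * W := by ring
  have h2 : I * K ≤ W * W * V := Nat.le_of_mul_le_mul_right h1 hWpos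
  have h3 : I * K ≤ K * V * K :=
    calc I * K ≤ W * W * V := h2
      _ ≤ K * K * V := Nat.mul_le_mul_right _ (Nat.mul_le_mul hW hW)
      _ = K * V * K := by ring
  exact Nat.le_of_mul_le_mul_right h3 hKpos

end ImageCount

/-! ### Level-constancy of lift cocycles -/

section LiftCocycle

open Fermat.Agent.TW.OrdLocal.OrdCocycle97 Fermat.Agent.TW.OrdLocal.OrdEnd97 in
/-- A lift over `k[ε]` factors through a finite level, hence so does any cocycle describing it. -/
theorem exists_level_of_isLiftCocycle (ρ : GaloisRepAdic (DualNumber k))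
    (c : GQ → Module.End k ρbar.V) (hc : IsLiftCocycle ρbar ρ c) :
    ∃ F : IntermediateField ℚ Qb, FiniteDimensional ℚ F ∧
      ∀ σ : GQ, σ ∈ F.fixingSubgroup → ρbar.ρ σ = 1 ∧ c σ = 0 := by
  obtain ⟨bbar, b, hmat⟩ := hc
  obtain ⟨F, hF, h1⟩ := ρ.isAdicContinuous 2
  refine ⟨F, hF, fun σ hσ => ?_⟩
  have hsq : IsLocalRing.maximalIdeal (DualNumber k) ^ 2 = ⊥ := by
    rw [DualNumber.maximalIdeal_eq_span_singleton_eps, Ideal.span_singleton_pow, sq,
      DualNumber.eps_mul_eps, Ideal.span_singleton_eq_bot]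
  have hρ1 : ρ.ρ σ = 1 := by
    ext v
    have := h1 σ (fun x hx => (IntermediateField.mem_fixingSubgroup_iff F σ).1 hσ x hx) v
    rw [hsq, Submodule.bot_smul, Submodule.mem_bot, sub_eq_zero] at this
    rw [this, Module.End.one_apply]
  have hm := hmat σ
  rw [hρ1, LinearMap.toMatrix_one] at hm
  have h0 : LinearMap.toMatrix bbar bbar (ρbar.ρ σ) = 1 := by
    have := congrArg part0 hm
    rw [part0_one, part0_map_add_map] at this
    exact this.symm
  have h1' : LinearMap.toMatrix bbar bbar (c σ * ρbar.ρ σ) = 0 := by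
    have := congrArg part1 hm
    rw [part1_one, part1_map_add_map] at this
    exact this.symm
  have hρbar1 : ρbar.ρ σ = 1 := by
    apply (LinearMap.toMatrix bbar bbar).injective
    rw [h0, LinearMap.toMatrix_one]
  refine ⟨hρbar1, ?_⟩
  rw [hρbar1, mul_one] at h1'
  apply (LinearMap.toMatrix bbar bbar).injective
  rw [h1', map_zero]

end LiftCocycle

/-! ### Membership of the local classes of strictly ordinary lifts -/

section Membership

variable [Algebra (ZMod p) k]

theorem charP_of_algebra : CharP k p := by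
  have : CharP (ZMod p) p := ZMod.charP p
  exact charP_of_injective_algebraMap (algebraMap (ZMod p) k).injective p

theorem natCast_p_eq_zero : ((p : ℕ) : k) = 0 := by
  have := charP_of_algebra (p := p) (k := k)
  exact CharP.cast_eq_zero k p

theorem two_ne_zero_of_odd (hp2 : p ≠ 2) : (2 : k) ≠ 0 := by
  have := charP_of_algebra (p := p) (k := k)
  intro h0
  have h1 : ((2 : ℕ) : k) = 0 := by rw [Nat.cast_ofNat]; exact h0
  rw [CharP.cast_eq_zero_iff k p] at h1
  exact hp2 ((Nat.prime_dvd_prime_iff_eq (Fact.out : p.Prime) Nat.prime_two).mp h1)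

/-- The ordinary line extracted from a strictly ordinary lift. -/
theorem exists_isOrdLine_of_lift (hp2 : p ≠ 2)
    (ρ : GaloisRepAdic (DualNumber k)) (c : GQ → Module.End k ρbar.V)
    (hc : IsLiftCocycle ρbar ρ c) (hord : ρ.IsStrictOrdinaryAt p) (hdet : ρ.DetIsCyclotomic p) :
    ∃ (v0 : ρbar.V) (y : Module.End k ρbar.V), IsOrdLine p ρbar (padicPlace p) v0 ∧
      LinearMap.trace k ρbar.V y = 0 ∧
      ∀ σ ∈ (padicPlace p).decompositionSubgroup ℚ,
        (c σ + ρbar.ρ σ * y * ρbar.ρ σ⁻¹ - y) v0 = 0 ∧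
        ∀ v, (c σ + ρbar.ρ σ * y * ρbar.ρ σ⁻¹ - y) v ∈ Submodule.span k {v0} := by
  obtain ⟨v0, y, hv0, hytr, hmain⟩ :=
    Fermat.Agent.TW.OrdLocal.OrdEnd97.exists_line_cocycle p (two_ne_zero_of_odd hp2)
      natCast_p_eq_zero ρbar ρ c hc hord hdet (padicPlace p) (padicPlace_liesOverPrime p)
  refine ⟨v0, y, ⟨hv0, fun σ hσ a ha => ?_⟩, hytr, fun σ hσ => ?_⟩
  · obtain ⟨z, hzz, hzI, hline, hquot, -, -⟩ := hmain σ hσ a ha
    exact ⟨z, hzz, hzI, hline, hquot⟩
  · obtain ⟨z, -, -, -, -, hm0, hmL⟩ := hmain σ hσ (cycloExp p σ)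
      (fun μ hμ => Fermat.Agent.TW.OrdLocal.StrictLift97.apply_eq_pow_cycloExp p σ hμ)
    exact ⟨hm0, hmL⟩

/-- **Membership.**  The local class at `p` of a strictly ordinary lift with cyclotomic determinant
lies in the image of `H¹_c(G_p, W⁰)`, `W⁰` formed with ANY ordinary line `v0`. -/
theorem resH1At_mem (hp2 : p ≠ 2) {v0 : ρbar.V} (h : IsOrdLine p ρbar (padicPlace p) v0)
    (ρ : GaloisRepAdic (DualNumber k)) (x : H1 (ad0 p ρbar)) (hx : IsLiftClass ρbar p ρ x)
    (hdet : ρ.DetIsCyclotomic p) (hord : ρ.IsStrictOrdinaryAt p) :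
    resH1At (pPrime p) (ad0 p ρbar) x ∈
      (continuousH1 (locAt (pPrime p)) (W0 h)).map (H1map (W0incl h)) := by
  obtain ⟨c, hc, rfl⟩ := hx
  obtain ⟨v0', y, hline', hytr, hmain⟩ := exists_isOrdLine_of_lift hp2 ρ _ hc hord hdet
  have hspan : Submodule.span k {v0'} = Submodule.span k {v0} :=
    h.span_eq hp2 (padicPlace_liesOverPrime p) hline'
  obtain ⟨F, hF, hlev⟩ := exists_level_of_isLiftCocycle ρ _ hc
  -- the local cocycle
  set cl : cocycles₁ (Mloc p ρbar) :=
    (mapCocycles₁ (locAt (pPrime p)) (𝟙 (resAt (pPrime p) (ad0 p ρbar)))).hom c with hcl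
  have hclv : ∀ g : primeLocalGaloisGroup (pPrime p), cl g = c.1 (locAt (pPrime p) g) := by
    intro g
    rw [hcl, coe_mapCocycles₁]
    rfl
  have hres : resH1At (pPrime p) (ad0 p ρbar) ((H1π (ad0 p ρbar)).hom c) =
      (H1π (Mloc p ρbar)).hom cl := by
    have h1 := congrArg (fun f => f.hom c)
      (H1π_comp_map (locAt (pPrime p)) (𝟙 (resAt (pPrime p) (ad0 p ρbar))))
    simp only [ModuleCat.hom_comp, LinearMap.comp_apply] at h1
    exact h1
  rw [hres]
  have hcoc := (mem_cocycles₁_iff c.1).1 c.2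
  refine H1π_mem_map_continuousH1_of_add_coboundary (locAt (pPrime p)) (W0incl h)
    (W0incl_injective h) cl (ofEnd p ρbar y hytr) (fun g => ?_) ?_ (isLevelConstant₁_ρ _)
  · -- values in `W⁰`
    rw [range_W0incl h, mem_W0sub_iff]
    have hval : toEnd p ρbar (cl g + ((Mloc p ρbar).ρ g (ofEnd p ρbar y hytr) -
        ofEnd p ρbar y hytr)) =
        ad0ToEnd p ρbar (c.1 (locAt (pPrime p) g)) +
          ρbar.ρ (locAt (pPrime p) g) * y * ρbar.ρ (locAt (pPrime p) g)⁻¹ - y := by
      rw [map_add, map_sub, toEnd_ρ, toEnd_ofEnd, hclv, add_sub_assoc]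
      rfl
    rw [hval]
    obtain ⟨hm0, hmL⟩ := hmain _ (locAt_mem_decompositionSubgroup p g)
    refine ⟨?_, fun v => ?_⟩
    · have hv0mem : v0 ∈ Submodule.span k {v0'} := by
        rw [hspan]; exact Submodule.mem_span_singleton_self v0
      obtain ⟨t, ht⟩ := Submodule.mem_span_singleton.1 hv0mem
      rw [← ht, map_smul, hm0, smul_zero]
    · rw [← hspan]
      exact hmL v
  · -- level-constancy of the local cocycle
    refine ⟨F, hF, fun g s hs => ?_⟩
    have hcs : c.1 (locAt (pPrime p) s) = 0 := by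
      apply toEnd_injective p ρbar
      exact (hlev _ hs).2
    rw [hclv, hclv, map_mul, hcoc, hcs, map_zero, zero_add]

end Membership

/-! ### The final theorem of WP6 -/

section Final

variable [Algebra (ZMod p) k]

variable (p ρbar) in
/-- **WP6.**  The local bound at `p` for strictly ordinary lifts with cyclotomic determinant:
`dim_{𝔽_p} L ≤ h⁰(ℚ_p, ad⁰ ρ̄) + [k : 𝔽_p]`. -/
theorem localBoundStrictOrdinary (hp2 : p ≠ 2) [Finite k] : LocalBoundStrictOrdinary p ρbar := by
  unfold LocalBoundStrictOrdinary LocalBound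
  by_cases hex : ∃ (ρ : GaloisRepAdic (DualNumber k)) (x : H1 (ad0 p ρbar)),
      IsLiftClass ρbar p ρ x ∧ ρ.DetIsCyclotomic p ∧ ρ.IsStrictOrdinaryAt p
  · obtain ⟨ρ₀, x₀, hx₀, hdet₀, hord₀⟩ := hex
    obtain ⟨c₀, hc₀, -⟩ := hx₀
    obtain ⟨v0, -, h, -, -⟩ := exists_isOrdLine_of_lift hp2 ρ₀ _ hc₀ hord₀ hdet₀
    obtain ⟨hfinH, hcard⟩ := finite_and_card_image_le hp2 h
    set L : Submodule (ZMod p) (H1 (resAt (pPrime p) (ad0 p ρbar))) :=
      (continuousH1 (locAt (pPrime p)) (W0 h)).map (H1map (W0incl h)) with hL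
    have hfinL : Finite L := by
      have : Finite (continuousH1 (locAt (pPrime p)) (W0 h)) := hfinH
      exact Finite.of_surjective
        (fun a : continuousH1 (locAt (pPrime p)) (W0 h) =>
          (⟨H1map (W0incl h) a, Submodule.mem_map_of_mem a.2⟩ : L))
        (by
          rintro ⟨_, ⟨a, ha, rfl⟩⟩
          exact ⟨⟨a, ha⟩, rfl⟩)
    have hfdL : FiniteDimensional (ZMod p) L := Module.Finite.of_finite
    refine ⟨L, hfdL, ?_, fun ρ x hx hcond => resH1At_mem hp2 h ρ x hx hcond.1 hcond.2⟩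
    -- from cardinalities to dimensions
    have hfinM : Finite (Mloc p ρbar) := finite_Mloc
    have hfdk : Module.Finite (ZMod p) k := Module.Finite.of_finite
    have hfdinv : Module.Finite (ZMod p) (Mloc p ρbar).ρ.invariants := Module.Finite.of_finite
    have hp1 : 1 < p := (Fact.out : p.Prime).one_lt
    have e1 : Nat.card L = p ^ Module.finrank (ZMod p) L := by
      rw [Module.natCard_eq_pow_finrank (K := ZMod p) (V := L), Nat.card_zmod]
    have e2 : Nat.card k = p ^ Module.finrank (ZMod p) k := by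
      rw [Module.natCard_eq_pow_finrank (K := ZMod p) (V := k), Nat.card_zmod]
    have e3 : Nat.card (Mloc p ρbar).ρ.invariants =
        p ^ Module.finrank (ZMod p) (Mloc p ρbar).ρ.invariants := by
      rw [Module.natCard_eq_pow_finrank (K := ZMod p) (V := (Mloc p ρbar).ρ.invariants),
        Nat.card_zmod]
    have hcard' : Nat.card L ≤ Nat.card k * Nat.card (Mloc p ρbar).ρ.invariants := hcard
    rw [e1, e2, e3, ← pow_add] at hcard'
    have := (Nat.pow_le_pow_iff_right hp1).1 hcard'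
    rw [one_mul]
    change Module.finrank (ZMod p) L ≤
      Module.finrank (ZMod p) (Mloc p ρbar).ρ.invariants + Module.finrank (ZMod p) k
    omega
  · refine ⟨⊥, inferInstance, ?_, fun ρ x hx hcond => ?_⟩
    · rw [finrank_bot]
      exact Nat.zero_le _
    · exact absurd ⟨ρ, x, hx, hcond.1, hcond.2⟩ hex

end Final

end Fermat.Agent.TW.LocP.StrictOrdBound89
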