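/-
Program TW (S56), work package WP6 (helper89), brick (6b'): the abstract count of `CountLocP89`
specialised to the Prelude's level-continuous classes `groupCohomology.continuousH1 r A`.

If the action of `G` on `M` is level-constant (factors through a finite level), all connecting classes
`[g ↦ φ⁻¹(g m - m)]` are level-continuous, so `H1c := continuousH1 r A` is admissible in
`CountLocP89.card_map_le`.
-/
import Mathlib
import Fermat.Prelude.Def_GroupCohomology_ContinuousH1
import Fermat.Agent.TW.LocP.CountLocP89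

set_option autoImplicit false

universe u

open CategoryTheory groupCohomology Fermat.Agent.TW.LocP.CountLocP89

namespace Fermat.Agent.TW.LocP.ContConn89

variable {k G : Type u} [Field k] [Group G]
  (r : G →* (AlgebraicClosure ℚ ≃ₐ[ℚ] AlgebraicClosure ℚ))
  {A M : Rep k G} (φ : A ⟶ M) (hφ : Function.Injective φ.hom.toLinearMap)

/-- The connecting cocycle of `m` is level-constant as soon as the orbit map of `m` is. -/
lemma isLevelConstant₁_connCocycle (m : relInv φ)
    (hm : IsLevelConstant₁ r (fun g : G => M.ρ g (m : M))) :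
    IsLevelConstant₁ r (connCocycle φ hφ m) := by
  obtain ⟨F, hF, h⟩ := hm
  refine ⟨F, hF, fun g s hs => ?_⟩
  apply hφ
  change φ.hom (connCochain φ hφ m (g * s)) = φ.hom (connCochain φ hφ m g)
  rw [hom_connCochain, hom_connCochain]
  have := h g s hs
  simp only at this
  rw [this]

/-- Connecting classes are level-continuous. -/
lemma connClass_mem_continuousH1 (m : relInv φ)
    (hm : IsLevelConstant₁ r (fun g : G => M.ρ g (m : M))) :
    connClass φ hφ m ∈ continuousH1 r A :=
  H1π_mem_continuousH1 r A (isLevelConstant₁_connCocycle r φ hφ m hm)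

lemma range_connClass_le_continuousH1
    (hlevel : ∀ m : M, IsLevelConstant₁ r (fun g : G => M.ρ g m)) :
    LinearMap.range (connClass φ hφ) ≤ continuousH1 r A := by
  rintro _ ⟨m, rfl⟩
  exact connClass_mem_continuousH1 r φ hφ m (hlevel _)

/-- The map induced by `φ` on `H¹` preserves level-continuous classes. -/
lemma map_continuousH1_le :
    (continuousH1 r A).map (H1map φ) ≤ continuousH1 r M := by
  rintro _ ⟨x, hx, rfl⟩
  obtain ⟨c, hc, rfl⟩ := (mem_continuousH1_iff r A x).1 hx
  have h1 := congrArg (fun f => f.hom c) (H1π_comp_map (MonoidHom.id G) φ)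
  simp only [ModuleCat.hom_comp, LinearMap.comp_apply] at h1
  change (groupCohomology.map (MonoidHom.id G) φ 1).hom ((H1π A).hom c) ∈ continuousH1 r M
  rw [h1]
  refine H1π_mem_continuousH1 r M ?_
  obtain ⟨F, hF, h⟩ := hc
  refine ⟨F, hF, fun g s hs => ?_⟩
  have e : ∀ g : G, ((mapCocycles₁ (MonoidHom.id G) φ).hom c) g = φ.hom (c g) := by
    intro g
    rw [coe_mapCocycles₁]
    simp [cochainsMap₁]
  rw [e, e, h g s hs]

include hφ in
/-- Sharp form of the count for level-continuous classes. -/
theorem card_map_continuousH1_mul_card_relInv_le [Finite M] [Finite (continuousH1 r A)]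
    (hlevel : ∀ m : M, IsLevelConstant₁ r (fun g : G => M.ρ g m)) :
    Nat.card ((continuousH1 r A).map (H1map φ)) * Nat.card (relInv φ) ≤
      Nat.card (continuousH1 r A) * (Nat.card M.ρ.invariants * Nat.card A) :=
  card_map_mul_card_relInv_le φ hφ (continuousH1 r A)
    (range_connClass_le_continuousH1 r φ hφ hlevel)

include hφ in
/-- **Count (6b) for level-continuous classes.** -/
theorem card_map_continuousH1_le [Finite k] [Finite M] [Finite (continuousH1 r A)]
    (hlevel : ∀ m : M, IsLevelConstant₁ r (fun g : G => M.ρ g m))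
    (hcard : Nat.card (continuousH1 r A) ≤ (Nat.card k) ^ 2)
    (hm : ∃ m ∈ relInv φ, m ∉ LinearMap.range φ.hom.toLinearMap) :
    Nat.card ((continuousH1 r A).map (H1map φ)) ≤ Nat.card k * Nat.card M.ρ.invariants :=
  card_map_le φ hφ (continuousH1 r A)
    (range_connClass_le_continuousH1 r φ hφ hlevel) hcard hm

section SubCocycle

/-- A cochain with values in the image of `φ`, pulled back to `A`. -/
noncomputable def pullCochain (c : G → M)
    (hc : ∀ g, c g ∈ LinearMap.range φ.hom.toLinearMap) : G → A :=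
  fun g => (LinearEquiv.ofInjective φ.hom.toLinearMap hφ).symm ⟨c g, hc g⟩

lemma hom_pullCochain (c : G → M) (hc : ∀ g, c g ∈ LinearMap.range φ.hom.toLinearMap) (g : G) :
    φ.hom (pullCochain φ hφ c hc g) = c g := by
  have := (LinearEquiv.ofInjective φ.hom.toLinearMap hφ).apply_symm_apply ⟨c g, hc g⟩
  exact congrArg Subtype.val this

lemma pullCochain_mem_cocycles₁ (c : G → M)
    (hc : ∀ g, c g ∈ LinearMap.range φ.hom.toLinearMap) (hcoc : c ∈ cocycles₁ M) :
    pullCochain φ hφ c hc ∈ cocycles₁ A := by
  rw [mem_cocycles₁_iff] at hcoc ⊢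
  intro g h
  apply hφ
  change φ.hom _ = φ.hom _
  rw [map_add, Rep.hom_comm_apply, hom_pullCochain, hom_pullCochain, hom_pullCochain, hcoc]

lemma isLevelConstant₁_pullCochain (c : G → M)
    (hc : ∀ g, c g ∈ LinearMap.range φ.hom.toLinearMap) (hl : IsLevelConstant₁ r c) :
    IsLevelConstant₁ r (pullCochain φ hφ c hc) := by
  obtain ⟨F, hF, h⟩ := hl
  refine ⟨F, hF, fun g s hs => ?_⟩
  apply hφ
  change φ.hom _ = φ.hom _
  rw [hom_pullCochain, hom_pullCochain, h g s hs]

include hφ in
/-- A level-constant cocycle of `M` with values in `φ(A)` has its class in the image of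
`continuousH1 r A`. -/
theorem H1π_mem_map_continuousH1 (c : cocycles₁ M)
    (hc : ∀ g, c g ∈ LinearMap.range φ.hom.toLinearMap) (hl : IsLevelConstant₁ r c) :
    (H1π M).hom c ∈ (continuousH1 r A).map (H1map φ) := by
  set a : cocycles₁ A := ⟨pullCochain φ hφ c hc, pullCochain_mem_cocycles₁ φ hφ c hc c.2⟩ with ha
  refine ⟨(H1π A).hom a, H1π_mem_continuousH1 r A (isLevelConstant₁_pullCochain r φ hφ c hc hl), ?_⟩
  have h1 := congrArg (fun f => f.hom a) (H1π_comp_map (MonoidHom.id G) φ)
  simp only [ModuleCat.hom_comp, LinearMap.comp_apply] at h1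
  change (groupCohomology.map (MonoidHom.id G) φ 1).hom ((H1π A).hom a) = _
  rw [h1]
  congr 1
  apply Subtype.ext
  funext g
  change ((mapCocycles₁ (MonoidHom.id G) φ).hom a) g = c g
  rw [coe_mapCocycles₁]
  simp only [cochainsMap₁]
  exact hom_pullCochain φ hφ c hc g

include hφ in
/-- Variant up to a coboundary: if `c + d y` has values in `φ(A)` for some `y : M` whose orbit map
is level-constant, the class of `c` lies in the image of `continuousH1 r A`. -/
theorem H1π_mem_map_continuousH1_of_add_coboundary (c : cocycles₁ M) (y : M)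
    (hc : ∀ g, c g + (M.ρ g y - y) ∈ LinearMap.range φ.hom.toLinearMap)
    (hl : IsLevelConstant₁ r c) (hy : IsLevelConstant₁ r (fun g : G => M.ρ g y)) :
    (H1π M).hom c ∈ (continuousH1 r A).map (H1map φ) := by
  have hb : (d₀₁ M).hom y ∈ coboundaries₁ M := ⟨y, rfl⟩
  set b : cocycles₁ M := ⟨(d₀₁ M).hom y, coboundaries₁_le_cocycles₁ M hb⟩ with hbdef
  have hbz : (H1π M).hom b = 0 := by
    rw [H1π_eq_zero_iff]; exact hb
  have hsum : (H1π M).hom c = (H1π M).hom (c + b) := by
    rw [map_add, hbz, add_zero]
  rw [hsum]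
  have hval : ∀ g, (c + b) g = c g + (M.ρ g y - y) := by
    intro g
    change c g + (d₀₁ M).hom y g = _
    rw [d₀₁_hom_apply]
  refine H1π_mem_map_continuousH1 r φ hφ (c + b) (fun g => by rw [hval]; exact hc g) ?_
  obtain ⟨F, hF, h⟩ := hl
  obtain ⟨F', hF', h'⟩ := hy
  have := hF; have := hF'
  refine ⟨F ⊔ F', inferInstance, fun g s hs => ?_⟩
  rw [hval, hval]
  have e1 := h g s (IntermediateField.fixingSubgroup_antitone le_sup_left hs)
  have e2 := h' g s (IntermediateField.fixingSubgroup_antitone le_sup_right hs)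
  simp only at e2
  rw [e1, e2]

end SubCocycle

end Fermat.Agent.TW.LocP.ContConn89
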