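/-
Program TW (S56), work package WP6 (helper89), brick (6c-1): the hypothesis `H⁰(G, M/W) ≠ 0` of the
abstract count, verified for `M = ad⁰ ρ̄ ⊇ W = W⁰(L̄)` in a model-agnostic matrix form.

`R̄ : G →* M₂(k)` is the residual representation in some basis, `g0` an invertible matrix whose first
column spans a `G`-stable line `L̄` (i.e. `g0⁻¹ R̄(g) g0` is upper triangular), `M` any `Rep k G` with
an injective linear map `ι : M → M₂(k)` intertwining the action with conjugation by `R̄` and whose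
image contains the trace-zero matrices, `φ : W ⟶ M` a morphism with
`ι(φ(W)) = { g0 [[0,u],[0,0]] g0⁻¹ }`.  Then `m := ι⁻¹(g0 diag(1,-1) g0⁻¹)` satisfies
`g m - m ∈ φ(W)` for all `g` and `m ∉ φ(W)`.
-/
import Mathlib
import Fermat.Prelude.Def_GroupCohomology_ContinuousH1
import Fermat.Agent.TW.LocP.CountLocP89
import Fermat.Agent.TW.LocP.ContConn89

set_option autoImplicit false

universe u

open CategoryTheory groupCohomology Matrix
open Fermat.Agent.TW.LocP.CountLocP89 Fermat.Agent.TW.LocP.ContConn89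

namespace Fermat.Agent.TW.LocP.OrdAd89

variable {k G : Type u} [Field k] [Group G]

local notation "M₂" => Matrix (Fin 2) (Fin 2)

/-- Conjugating `diag(1,-1)` by an upper triangular matrix changes it by a strictly upper triangular
matrix. -/
lemma tri_conj_diag (T T' : M₂ k) (hTT' : T * T' = 1) (hT : T 1 0 = 0) (hT' : T' 1 0 = 0) :
    T * !![1, 0; 0, -1] * T' - !![1, 0; 0, -1] = !![0, T 0 0 * T' 0 1 - T 0 1 * T' 1 1; 0, 0] := by
  have h00 := congrFun (congrFun hTT' 0) 0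
  have h11 := congrFun (congrFun hTT' 1) 1
  simp only [Matrix.mul_apply, Fin.sum_univ_two, Matrix.one_apply_eq] at h00 h11
  rw [hT'] at h00
  rw [hT] at h11
  simp only [mul_zero, add_zero, zero_mul, zero_add] at h00 h11
  ext i j
  fin_cases i <;> fin_cases j <;>
    (simp [Matrix.mul_apply, Fin.sum_univ_two, hT, hT', h00, h11]; try ring)

variable (Rbar : G →* M₂ k) {M W : Rep k G} (φ : W ⟶ M) (ι : M →ₗ[k] M₂ k)

/-- **`H⁰(G, ad⁰/W⁰) ≠ 0`**, model-agnostic matrix form. -/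
theorem exists_mem_relInv_not_mem_range
    (hι : Function.Injective ι)
    (hιρ : ∀ (g : G) (m : M), ι (M.ρ g m) = Rbar g * ι m * Rbar g⁻¹)
    (hιtr : ∀ X : M₂ k, Matrix.trace X = 0 → X ∈ LinearMap.range ι)
    (g0 g0' : M₂ k) (h1 : g0 * g0' = 1) (h2 : g0' * g0 = 1)
    (htri : ∀ g : G, (g0' * Rbar g * g0) 1 0 = 0)
    (hW : ∀ X : M₂ k, X ∈ LinearMap.range (ι ∘ₗ φ.hom.toLinearMap) ↔
      ∃ u : k, X = g0 * !![0, u; 0, 0] * g0') :
    ∃ m ∈ relInv φ, m ∉ LinearMap.range φ.hom.toLinearMap := by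
  set D : M₂ k := !![1, 0; 0, -1] with hD
  have htrD : Matrix.trace (g0 * D * g0') = 0 := by
    rw [Matrix.trace_mul_cycle, h2, Matrix.one_mul, hD]
    simp [Matrix.trace_fin_two]
  obtain ⟨m, hm⟩ := hιtr _ htrD
  refine ⟨m, ?_, ?_⟩
  · intro g
    -- compute `ι (g m - m)`
    set T : M₂ k := g0' * Rbar g * g0 with hT
    set T' : M₂ k := g0' * Rbar g⁻¹ * g0 with hT'
    have hTT' : T * T' = 1 := by
      rw [hT, hT']
      calc g0' * Rbar g * g0 * (g0' * Rbar g⁻¹ * g0)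
          = g0' * Rbar g * (g0 * g0') * Rbar g⁻¹ * g0 := by simp only [Matrix.mul_assoc]
        _ = g0' * (Rbar g * Rbar g⁻¹) * g0 := by rw [h1, Matrix.mul_one]; simp only [Matrix.mul_assoc]
        _ = 1 := by rw [← map_mul, mul_inv_cancel, map_one, Matrix.mul_one, h2]
    have key := tri_conj_diag T T' hTT' (htri g) (htri g⁻¹)
    have hcalc : ι (M.ρ g m - m) =
        g0 * !![0, T 0 0 * T' 0 1 - T 0 1 * T' 1 1; 0, 0] * g0' := by
      rw [map_sub, hιρ, hm, ← key, hT, hT']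
      have e1 : Rbar g * (g0 * D * g0') * Rbar g⁻¹ =
          g0 * (g0' * Rbar g * g0 * D * (g0' * Rbar g⁻¹ * g0)) * g0' := by
        calc Rbar g * (g0 * D * g0') * Rbar g⁻¹
            = (g0 * g0') * Rbar g * g0 * D * g0' * Rbar g⁻¹ * (g0 * g0') := by
              rw [h1, Matrix.one_mul, Matrix.mul_one]; simp only [Matrix.mul_assoc]
          _ = g0 * (g0' * Rbar g * g0 * D * (g0' * Rbar g⁻¹ * g0)) * g0' := by
              simp only [Matrix.mul_assoc]
      rw [e1, Matrix.mul_sub, Matrix.sub_mul]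
    have hmem : ι (M.ρ g m - m) ∈ LinearMap.range (ι ∘ₗ φ.hom.toLinearMap) :=
      (hW _).2 ⟨_, hcalc⟩
    obtain ⟨w, hw⟩ := hmem
    exact ⟨w, hι hw⟩
  · rintro ⟨w, hw⟩
    have hmem : g0 * D * g0' ∈ LinearMap.range (ι ∘ₗ φ.hom.toLinearMap) :=
      ⟨w, by rw [LinearMap.comp_apply, hw, hm]⟩
    obtain ⟨u, hu⟩ := (hW _).1 hmem
    have hDu : D = !![0, u; 0, 0] := by
      have : g0' * (g0 * D * g0') * g0 = g0' * (g0 * !![0, u; 0, 0] * g0') * g0 := by rw [hu]
      have e : ∀ X : M₂ k, g0' * (g0 * X * g0') * g0 = X := by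
        intro X
        calc g0' * (g0 * X * g0') * g0 = (g0' * g0) * X * (g0' * g0) := by
              simp only [Matrix.mul_assoc]
          _ = X := by rw [h2, Matrix.one_mul, Matrix.mul_one]
      rwa [e, e] at this
    have := congrFun (congrFun hDu 0) 0
    simp [hD] at this

/-- **Count at `p` in the strictly ordinary case** (level-continuous classes, model-agnostic matrix
form): `#im(H¹_c(G, W⁰) → H¹(G, ad⁰)) ≤ |k| · #H⁰(G, ad⁰)` given `#H¹_c(G, W⁰) ≤ |k|²`. -/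
theorem card_map_continuousH1_ord_le
    (r : G →* (AlgebraicClosure ℚ ≃ₐ[ℚ] AlgebraicClosure ℚ))
    (hφ : Function.Injective φ.hom.toLinearMap)
    (hι : Function.Injective ι)
    (hιρ : ∀ (g : G) (m : M), ι (M.ρ g m) = Rbar g * ι m * Rbar g⁻¹)
    (hιtr : ∀ X : M₂ k, Matrix.trace X = 0 → X ∈ LinearMap.range ι)
    (g0 g0' : M₂ k) (h1 : g0 * g0' = 1) (h2 : g0' * g0 = 1)
    (htri : ∀ g : G, (g0' * Rbar g * g0) 1 0 = 0)
    (hW : ∀ X : M₂ k, X ∈ LinearMap.range (ι ∘ₗ φ.hom.toLinearMap) ↔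
      ∃ u : k, X = g0 * !![0, u; 0, 0] * g0')
    [Finite k] [Finite M] [Finite (continuousH1 r W)]
    (hlevel : ∀ m : M, IsLevelConstant₁ r (fun g : G => M.ρ g m))
    (hcard : Nat.card (continuousH1 r W) ≤ (Nat.card k) ^ 2) :
    Nat.card ((continuousH1 r W).map (H1map φ)) ≤ Nat.card k * Nat.card M.ρ.invariants :=
  card_map_continuousH1_le r φ hφ hlevel hcard
    (exists_mem_relInv_not_mem_range Rbar φ ι hι hιρ hιtr g0 g0' h1 h2 htri hW)

/-- **Membership (6c-2)**: a level-constant cocycle `c` of `M` which, after adding the coboundary of a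
trace-zero matrix `Y` and conjugating by `g0`, is strictly upper triangular, has its class in the image
of `continuousH1 r W`.  (This is the output shape of the strict-ordinary linear algebra (6a).) -/
theorem H1π_mem_map_continuousH1_of_conj
    (r : G →* (AlgebraicClosure ℚ ≃ₐ[ℚ] AlgebraicClosure ℚ))
    (hφ : Function.Injective φ.hom.toLinearMap)
    (hι : Function.Injective ι)
    (hιρ : ∀ (g : G) (m : M), ι (M.ρ g m) = Rbar g * ι m * Rbar g⁻¹)
    (hιtr : ∀ X : M₂ k, Matrix.trace X = 0 → X ∈ LinearMap.range ι)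
    (g0 g0' : M₂ k) (h1 : g0 * g0' = 1)
    (hW : ∀ X : M₂ k, X ∈ LinearMap.range (ι ∘ₗ φ.hom.toLinearMap) ↔
      ∃ u : k, X = g0 * !![0, u; 0, 0] * g0')
    (hlevel : ∀ m : M, IsLevelConstant₁ r (fun g : G => M.ρ g m))
    (c : cocycles₁ M) (hl : IsLevelConstant₁ r c)
    (Y : M₂ k) (hY : Matrix.trace Y = 0)
    (hc : ∀ g : G, ∃ u : k,
      g0' * (ι (c g) + Rbar g * Y * Rbar g⁻¹ - Y) * g0 = !![0, u; 0, 0]) :
    (H1π M).hom c ∈ (continuousH1 r W).map (H1map φ) := by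
  obtain ⟨y, hy⟩ := hιtr Y hY
  refine H1π_mem_map_continuousH1_of_add_coboundary r φ hφ c y (fun g => ?_) hl (hlevel y)
  obtain ⟨u, hu⟩ := hc g
  have hval : ι (c g + (M.ρ g y - y)) = ι (c g) + Rbar g * Y * Rbar g⁻¹ - Y := by
    rw [map_add, map_sub, hιρ, hy, add_sub_assoc]
  have hmem : ι (c g + (M.ρ g y - y)) ∈ LinearMap.range (ι ∘ₗ φ.hom.toLinearMap) := by
    refine (hW _).2 ⟨u, ?_⟩
    rw [hval, ← hu]
    set Z : M₂ k := ι (c g) + Rbar g * Y * Rbar g⁻¹ - Y
    calc Z = (g0 * g0') * Z * (g0 * g0') := by rw [h1, Matrix.one_mul, Matrix.mul_one]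
      _ = g0 * (g0' * Z * g0) * g0' := by simp only [Matrix.mul_assoc]
  obtain ⟨w, hw⟩ := hmem
  exact ⟨w, hι hw⟩

end Fermat.Agent.TW.LocP.OrdAd89
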