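/-
Program TW (S56), work package WP6 (helper89), brick (6c-3): the sub-representation
`W⁰ = Hom(V̄/L̄, L̄) ⊆ ad⁰ ρ̄` in model-agnostic matrix form, its character, and the resulting count.

Data: `R̄ : G →* M₂(k)`, a `Rep k G` called `M` with an injective linear `ι : M → M₂(k)` intertwining the
action with conjugation by `R̄` and whose image contains the trace-zero matrices, and an invertible `g0`
with `g0⁻¹ R̄(g) g0 = [[a(g) z, u], [0, z]]`, `z² = 1` (the output shape of the strict-ordinary linear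
algebra).  Then `W⁰ := ι⁻¹(k · g0 E₁₂ g0⁻¹)` is a sub-representation on which `G` acts through the
character `a`, it is one-dimensional, and `#im(H¹_c(G, W⁰) → H¹(G, M)) ≤ |k| · #H⁰(G, M)` as soon as
`#H¹_c(G, W⁰) ≤ |k|²`.
-/
import Mathlib
import Fermat.Prelude.Def_GroupCohomology_ContinuousH1
import Fermat.Agent.TW.LocP.CountLocP89
import Fermat.Agent.TW.LocP.ContConn89
import Fermat.Agent.TW.LocP.OrdAd89

set_option autoImplicit false

universe u

open CategoryTheory groupCohomology Matrix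
open Fermat.Agent.TW.LocP.CountLocP89 Fermat.Agent.TW.LocP.ContConn89
  Fermat.Agent.TW.LocP.OrdAd89

namespace Fermat.Agent.TW.LocP.W0Rep89

variable {k G : Type u} [Field k] [Group G]

local notation "M₂" => Matrix (Fin 2) (Fin 2)

/-- The elementary matrix `E₁₂`. -/
def E12 : M₂ k := !![0, 1; 0, 0]

lemma smul_E12 (u : k) : u • (E12 : M₂ k) = !![0, u; 0, 0] := by
  ext i j
  fin_cases i <;> fin_cases j <;> simp [E12]

/-- Conjugating `E₁₂` by an upper triangular matrix rescales it. -/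
lemma tri_conj_E12 (T T' : M₂ k) (hT : T 1 0 = 0) (hT' : T' 1 0 = 0) :
    T * E12 * T' = (T 0 0 * T' 1 1) • (E12 : M₂ k) := by
  ext i j
  fin_cases i <;> fin_cases j <;>
    simp [E12, Matrix.mul_apply, Fin.sum_univ_two, hT, hT']

variable (Rbar : G →* M₂ k) (M : Rep k G) (ι : M →ₗ[k] M₂ k) (g0 g0' : M₂ k)

/-- The submodule `ι⁻¹(k · g0 E₁₂ g0')` of `M`. -/
def W0sub : Submodule k M := (Submodule.span k {g0 * E12 * g0'}).comap ι

lemma mem_W0sub_iff (m : M) : m ∈ W0sub M ι g0 g0' ↔ ∃ u : k, ι m = u • (g0 * E12 * g0') := by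
  rw [W0sub, Submodule.mem_comap, Submodule.mem_span_singleton]
  constructor
  · rintro ⟨u, hu⟩; exact ⟨u, hu.symm⟩
  · rintro ⟨u, hu⟩; exact ⟨u, hu.symm⟩

variable {Rbar M ι g0 g0'}

/-- The action on `W⁰`: `ι(g m) = (T₀₀ T'₁₁) ι(m)` for `m ∈ W⁰`. -/
lemma ι_ρ_of_mem_W0sub
    (hιρ : ∀ (g : G) (m : M), ι (M.ρ g m) = Rbar g * ι m * Rbar g⁻¹)
    (h1 : g0 * g0' = 1)
    (htri : ∀ g : G, (g0' * Rbar g * g0) 1 0 = 0)
    (g : G) {m : M} (hm : m ∈ W0sub M ι g0 g0') :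
    ι (M.ρ g m) = ((g0' * Rbar g * g0) 0 0 * (g0' * Rbar g⁻¹ * g0) 1 1) • ι m := by
  obtain ⟨u, hu⟩ := (mem_W0sub_iff M ι g0 g0' m).1 hm
  rw [hιρ, hu]
  have key := tri_conj_E12 (g0' * Rbar g * g0) (g0' * Rbar g⁻¹ * g0) (htri g) (htri g⁻¹)
  have e1 : Rbar g * (g0 * E12 * g0') * Rbar g⁻¹ =
      g0 * ((g0' * Rbar g * g0) * E12 * (g0' * Rbar g⁻¹ * g0)) * g0' := by
    calc Rbar g * (g0 * E12 * g0') * Rbar g⁻¹
        = (g0 * g0') * Rbar g * g0 * E12 * g0' * Rbar g⁻¹ * (g0 * g0') := by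
          rw [h1, Matrix.one_mul, Matrix.mul_one]; simp only [Matrix.mul_assoc]
      _ = g0 * ((g0' * Rbar g * g0) * E12 * (g0' * Rbar g⁻¹ * g0)) * g0' := by
          simp only [Matrix.mul_assoc]
  rw [Matrix.mul_smul, Matrix.smul_mul, e1, key, Matrix.mul_smul, Matrix.smul_mul, smul_comm]

lemma W0sub_le_comap
    (hιρ : ∀ (g : G) (m : M), ι (M.ρ g m) = Rbar g * ι m * Rbar g⁻¹)
    (h1 : g0 * g0' = 1)
    (htri : ∀ g : G, (g0' * Rbar g * g0) 1 0 = 0) (g : G) :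
    W0sub M ι g0 g0' ≤ (W0sub M ι g0 g0').comap (M.ρ g) := by
  intro m hm
  rw [Submodule.mem_comap, mem_W0sub_iff]
  obtain ⟨u, hu⟩ := (mem_W0sub_iff M ι g0 g0' m).1 hm
  refine ⟨((g0' * Rbar g * g0) 0 0 * (g0' * Rbar g⁻¹ * g0) 1 1) * u, ?_⟩
  rw [ι_ρ_of_mem_W0sub hιρ h1 htri g hm, hu, smul_smul]

variable (Rbar M ι g0 g0')

/-- `W⁰` as a representation. -/
noncomputable abbrev W0
    (hιρ : ∀ (g : G) (m : M), ι (M.ρ g m) = Rbar g * ι m * Rbar g⁻¹)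
    (h1 : g0 * g0' = 1)
    (htri : ∀ g : G, (g0' * Rbar g * g0) 1 0 = 0) : Rep k G :=
  Rep.subrepresentation M (W0sub M ι g0 g0') (W0sub_le_comap hιρ h1 htri)

/-- The inclusion `W⁰ ⟶ M`. -/
noncomputable abbrev W0incl
    (hιρ : ∀ (g : G) (m : M), ι (M.ρ g m) = Rbar g * ι m * Rbar g⁻¹)
    (h1 : g0 * g0' = 1)
    (htri : ∀ g : G, (g0' * Rbar g * g0) 1 0 = 0) :
    W0 Rbar M ι g0 g0' hιρ h1 htri ⟶ M :=
  Rep.subtype M (W0sub M ι g0 g0') (W0sub_le_comap hιρ h1 htri)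

variable {Rbar M ι g0 g0'}

section props

variable (hιρ : ∀ (g : G) (m : M), ι (M.ρ g m) = Rbar g * ι m * Rbar g⁻¹)
  (h1 : g0 * g0' = 1) (htri : ∀ g : G, (g0' * Rbar g * g0) 1 0 = 0)

lemma W0incl_injective :
    Function.Injective (W0incl Rbar M ι g0 g0' hιρ h1 htri).hom.toLinearMap := by
  intro x y h
  exact Subtype.ext h

lemma range_W0incl :
    LinearMap.range (W0incl Rbar M ι g0 g0' hιρ h1 htri).hom.toLinearMap = W0sub M ι g0 g0' := by
  ext m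
  constructor
  · rintro ⟨w, rfl⟩
    exact w.2
  · intro hm
    exact ⟨⟨m, hm⟩, rfl⟩

/-- The hypothesis `hW` of `OrdAd89` holds for `W⁰`. -/
lemma mem_range_ι_comp_W0incl_iff
    (hιtr : ∀ X : M₂ k, Matrix.trace X = 0 → X ∈ LinearMap.range ι)
    (h2 : g0' * g0 = 1) (X : M₂ k) :
    X ∈ LinearMap.range (ι ∘ₗ (W0incl Rbar M ι g0 g0' hιρ h1 htri).hom.toLinearMap) ↔
      ∃ u : k, X = g0 * !![0, u; 0, 0] * g0' := by
  constructor
  · rintro ⟨w, rfl⟩
    obtain ⟨u, hu⟩ := (mem_W0sub_iff M ι g0 g0' _).1 w.2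
    refine ⟨u, ?_⟩
    rw [← smul_E12, Matrix.mul_smul, Matrix.smul_mul]
    exact hu
  · rintro ⟨u, rfl⟩
    have htr : Matrix.trace (g0 * !![0, u; 0, 0] * g0') = 0 := by
      rw [Matrix.trace_mul_cycle, h2, Matrix.one_mul]
      simp [Matrix.trace_fin_two]
    obtain ⟨m, hm⟩ := hιtr _ htr
    have hmW : m ∈ W0sub M ι g0 g0' := by
      rw [mem_W0sub_iff]
      refine ⟨u, ?_⟩
      rw [hm, ← smul_E12, Matrix.mul_smul, Matrix.smul_mul]
    exact ⟨⟨m, hmW⟩, hm⟩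

end props

/-- The shape delivered by the strict-ordinary linear algebra: `g0⁻¹ R̄(g) g0 = [[a z, u], [0, z]]`
with `z² = 1`. -/
def OrdShape (Rbar : G →* M₂ k) (g0 g0' : M₂ k) (a : G → k) : Prop :=
  ∀ g : G, ∃ z u : k, z * z = 1 ∧ g0' * Rbar g * g0 = !![a g * z, u; 0, z]

lemma OrdShape.htri {a : G → k} (h : OrdShape Rbar g0 g0' a) (g : G) :
    (g0' * Rbar g * g0) 1 0 = 0 := by
  obtain ⟨z, u, -, hz⟩ := h g
  rw [hz]; simp

/-- Under `OrdShape`, the product `T₀₀ T'₁₁` is the character `a`. -/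
lemma OrdShape.char_eq {a : G → k} (h : OrdShape Rbar g0 g0' a) (h1 : g0 * g0' = 1) (g : G) :
    (g0' * Rbar g * g0) 0 0 * (g0' * Rbar g⁻¹ * g0) 1 1 = a g := by
  obtain ⟨z, u, hzz, hz⟩ := h g
  obtain ⟨z', u', hzz', hz'⟩ := h g⁻¹
  have hTT' : (g0' * Rbar g * g0) * (g0' * Rbar g⁻¹ * g0) = g0' * g0 := by
    calc g0' * Rbar g * g0 * (g0' * Rbar g⁻¹ * g0)
        = g0' * Rbar g * (g0 * g0') * Rbar g⁻¹ * g0 := by simp only [Matrix.mul_assoc]
      _ = g0' * (Rbar g * Rbar g⁻¹) * g0 := by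
          rw [h1, Matrix.mul_one]; simp only [Matrix.mul_assoc]
      _ = g0' * g0 := by rw [← map_mul, mul_inv_cancel, map_one, Matrix.mul_one]
  have h2 : g0' * g0 = 1 := mul_eq_one_comm.1 h1
  rw [h2, hz, hz'] at hTT'
  have h11 := congrFun (congrFun hTT' 1) 1
  simp [Matrix.mul_apply, Fin.sum_univ_two] at h11
  rw [hz, hz']
  simp only [Matrix.of_apply, Matrix.cons_val', Matrix.cons_val_zero, Matrix.cons_val_one,
    Matrix.cons_val_fin_one]
  -- `z z' = 1` and `z z = 1` give `z' = z`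
  have hz'z : z' = z := by
    have : z' = z' * (z * z) := by rw [hzz, mul_one]
    rw [this, ← mul_assoc, mul_comm z' z, h11, one_mul]
  rw [hz'z, mul_assoc, hzz, mul_one]

/-- `G` acts on `W⁰` through the character `a`. -/
lemma W0_ρ_apply {a : G → k} (hι : Function.Injective ι)
    (hιρ : ∀ (g : G) (m : M), ι (M.ρ g m) = Rbar g * ι m * Rbar g⁻¹)
    (h1 : g0 * g0' = 1) (h : OrdShape Rbar g0 g0' a) (g : G)
    (w : W0 Rbar M ι g0 g0' hιρ h1 h.htri) :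
    (W0 Rbar M ι g0 g0' hιρ h1 h.htri).ρ g w = a g • w := by
  apply Subtype.ext
  apply hι
  change ι (M.ρ g (w : M)) = ι (a g • (w : M))
  rw [ι_ρ_of_mem_W0sub hιρ h1 h.htri g w.2, h.char_eq h1 g, map_smul]

lemma conj_E12_ne_zero (h1 : g0 * g0' = 1) : g0 * (E12 : M₂ k) * g0' ≠ 0 := by
  have h2 : g0' * g0 = 1 := mul_eq_one_comm.1 h1
  intro h0
  have : (E12 : M₂ k) = g0' * (g0 * E12 * g0') * g0 := by
    calc (E12 : M₂ k) = (g0' * g0) * E12 * (g0' * g0) := by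
          rw [h2, Matrix.one_mul, Matrix.mul_one]
      _ = g0' * (g0 * E12 * g0') * g0 := by simp only [Matrix.mul_assoc]
  rw [h0, Matrix.mul_zero, Matrix.zero_mul] at this
  have := congrFun (congrFun this 0) 1
  simp [E12] at this

/-- `W⁰` is one-dimensional. -/
lemma finrank_W0 {a : G → k} (hι : Function.Injective ι)
    (hιρ : ∀ (g : G) (m : M), ι (M.ρ g m) = Rbar g * ι m * Rbar g⁻¹)
    (hιtr : ∀ X : M₂ k, Matrix.trace X = 0 → X ∈ LinearMap.range ι)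
    (h1 : g0 * g0' = 1) (h : OrdShape Rbar g0 g0' a) :
    Module.finrank k (W0 Rbar M ι g0 g0' hιρ h1 h.htri) = 1 := by
  have h2 : g0' * g0 = 1 := mul_eq_one_comm.1 h1
  have htr : Matrix.trace (g0 * (E12 : M₂ k) * g0') = 0 := by
    rw [Matrix.trace_mul_cycle, h2, Matrix.one_mul]
    simp [E12, Matrix.trace_fin_two]
  obtain ⟨m, hm⟩ := hιtr _ htr
  have hmW : m ∈ W0sub M ι g0 g0' := (mem_W0sub_iff M ι g0 g0' m).2 ⟨1, by rw [hm, one_smul]⟩
  rw [finrank_eq_one_iff']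
  refine ⟨⟨m, hmW⟩, ?_, ?_⟩
  · intro h0
    have : m = 0 := congrArg Subtype.val h0
    rw [this, map_zero] at hm
    exact conj_E12_ne_zero h1 hm.symm
  · intro w
    obtain ⟨u, hu⟩ := (mem_W0sub_iff M ι g0 g0' _).1 w.2
    refine ⟨u, ?_⟩
    apply Subtype.ext
    apply hι
    change ι (u • m) = ι (w : M)
    rw [map_smul, hm, hu]

/-- **Count at `p`, strictly ordinary case, final model-agnostic form.** -/
theorem card_map_continuousH1_W0_le {a : G → k}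
    (r : G →* (AlgebraicClosure ℚ ≃ₐ[ℚ] AlgebraicClosure ℚ))
    (hι : Function.Injective ι)
    (hιρ : ∀ (g : G) (m : M), ι (M.ρ g m) = Rbar g * ι m * Rbar g⁻¹)
    (hιtr : ∀ X : M₂ k, Matrix.trace X = 0 → X ∈ LinearMap.range ι)
    (h1 : g0 * g0' = 1) (h : OrdShape Rbar g0 g0' a)
    [Finite k] [Finite M]
    (hlevel : ∀ m : M, IsLevelConstant₁ r (fun g : G => M.ρ g m))
    [Finite (continuousH1 r (W0 Rbar M ι g0 g0' hιρ h1 h.htri))]
    (hcard : Nat.card (continuousH1 r (W0 Rbar M ι g0 g0' hιρ h1 h.htri)) ≤ (Nat.card k) ^ 2) :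
    Nat.card ((continuousH1 r (W0 Rbar M ι g0 g0' hιρ h1 h.htri)).map
        (H1map (W0incl Rbar M ι g0 g0' hιρ h1 h.htri))) ≤
      Nat.card k * Nat.card M.ρ.invariants := by
  have h2 : g0' * g0 = 1 := mul_eq_one_comm.1 h1
  exact card_map_continuousH1_ord_le Rbar (W0incl Rbar M ι g0 g0' hιρ h1 h.htri) ι r
    (W0incl_injective hιρ h1 h.htri) hι hιρ hιtr g0 g0' h1 h2 h.htri
    (mem_range_ι_comp_W0incl_iff hιρ h1 h.htri hιtr h2) hlevel hcard

/-- **Membership, final model-agnostic form**: the class of a level-constant cocycle `c` of `M` that is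
`W⁰`-valued up to the coboundary of a trace-zero `Y` lies in the image of `continuousH1 r W⁰`. -/
theorem H1π_mem_map_continuousH1_W0 {a : G → k}
    (r : G →* (AlgebraicClosure ℚ ≃ₐ[ℚ] AlgebraicClosure ℚ))
    (hι : Function.Injective ι)
    (hιρ : ∀ (g : G) (m : M), ι (M.ρ g m) = Rbar g * ι m * Rbar g⁻¹)
    (hιtr : ∀ X : M₂ k, Matrix.trace X = 0 → X ∈ LinearMap.range ι)
    (h1 : g0 * g0' = 1) (h : OrdShape Rbar g0 g0' a)
    (hlevel : ∀ m : M, IsLevelConstant₁ r (fun g : G => M.ρ g m))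
    (c : cocycles₁ M) (hl : IsLevelConstant₁ r c)
    (Y : M₂ k) (hY : Matrix.trace Y = 0)
    (hc : ∀ g : G, ∃ u : k,
      g0' * (ι (c g) + Rbar g * Y * Rbar g⁻¹ - Y) * g0 = !![0, u; 0, 0]) :
    (H1π M).hom c ∈ (continuousH1 r (W0 Rbar M ι g0 g0' hιρ h1 h.htri)).map
        (H1map (W0incl Rbar M ι g0 g0' hιρ h1 h.htri)) := by
  have h2 : g0' * g0 = 1 := mul_eq_one_comm.1 h1
  exact H1π_mem_map_continuousH1_of_conj Rbar (W0incl Rbar M ι g0 g0' hιρ h1 h.htri) ι r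
    (W0incl_injective hιρ h1 h.htri) hι hιρ hιtr g0 g0' h1
    (mem_range_ι_comp_W0incl_iff hιρ h1 h.htri hιtr h2) hlevel c hl Y hY hc

end Fermat.Agent.TW.LocP.W0Rep89
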